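import Fermat.Agent.F4.Glob.Main
import Fermat.Agent.F4.PT.Main

/-!
# F4 / Assembly : S55 (Poitou–Tate) from `exists_globalDatum` and `exists_PTSegment`

This is the statement of `Fermat/Statements/S55.lean`; it becomes `Fermat/Agent/S55.lean` once the
closure is sorry-free.
-/

set_option autoImplicit false

open CategoryTheory Module groupCohomology ExtCitation

namespace Fermat.Agent.F4

theorem poitouTate
    {p : ℕ} [Fact p.Prime] (hp2 : p ≠ 2) (S : Finset Nat.Primes) (hpS : pPrime p ∈ S)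
    (M : Rep (ZMod p) (AlgebraicClosure ℚ ≃ₐ[ℚ] AlgebraicClosure ℚ))
    [FiniteDimensional (ZMod p) M]
    (hsm : ∀ m : M, ∃ F : IntermediateField ℚ (AlgebraicClosure ℚ), FiniteDimensional ℚ F ∧
      ∀ s ∈ F.fixingSubgroup, M.ρ s m = m)
    (hMur : ∀ q : Nat.Primes, q ∉ S → ∀ A : ValuationSubring (AlgebraicClosure ℚ),
      A.LiesOverPrime (q : ℕ) → ∀ g ∈ A.inertiaSubgroupIn ℚ, M.ρ g = 1) :
    ∃ B : sha₁ S (M.dualTwist (cycloChar p)) →ₗ[ZMod p] sha₂ S M →ₗ[ZMod p] ZMod p,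
      (∀ y, (∀ x, B y x = 0) → y = 0) ∧ (∀ x, (∀ y, B y x = 0) → x = 0) := by
  obtain ⟨D⟩ := exists_globalDatum hp2 S hpS
  obtain ⟨P⟩ := exists_PTSegment hp2 S hpS D M hsm hMur
  exact P.exists_pairing

end Fermat.Agent.F4
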