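import Fermat.Agent.F4.Hyper

/-!
# F4 / HyperLES : the long exact sequence of smooth hypercohomology (H-LES)

For a termwise short exact sequence `0 → K' → K → K'' → 0` of smooth 2-term complexes we construct
the maps on `HH⁰, HH¹, HH²`, the connecting maps `HH⁰(K'') → HH¹(K')`, `HH¹(K'') → HH²(K')` and
prove exactness of
`HH⁰(K) → HH⁰(K'') → HH¹(K') → HH¹(K) → HH¹(K'') → HH²(K') → HH²(K) → HH²(K'')`.
-/

set_option autoImplicit false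

open CategoryTheory groupCohomology

namespace Fermat.Agent.F4

variable {k G : Type} [CommRing k] [Group G]

/-! ### Finite directedness and common levels -/

namespace Levels

variable (𝓤 : Levels G)

lemma exists_le_finset {ι : Type*} (s : Finset ι) (W : ι → Subgroup G)
    (hW : ∀ i ∈ s, W i ∈ 𝓤.sets) : ∃ V ∈ 𝓤.sets, ∀ i ∈ s, V ≤ W i := by
  classical
  induction s using Finset.induction_on with
  | empty =>
    obtain ⟨V, hV⟩ := 𝓤.nonempty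
    exact ⟨V, hV, by simp⟩
  | insert a s _ ih =>
    obtain ⟨V, hV, hVs⟩ := ih fun i hi => hW i (Finset.mem_insert_of_mem hi)
    obtain ⟨V', hV', hle⟩ := 𝓤.directed V hV (W a) (hW a (Finset.mem_insert_self a s))
    refine ⟨V', hV', fun i hi => ?_⟩
    rcases Finset.mem_insert.1 hi with rfl | hi
    · exact hle.trans inf_le_right
    · exact (hle.trans inf_le_left).trans (hVs i hi)

lemma exists_le_of_finite {ι : Type*} [Finite ι] (W : ι → Subgroup G)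
    (hW : ∀ i, W i ∈ 𝓤.sets) : ∃ V ∈ 𝓤.sets, ∀ i, V ≤ W i := by
  classical
  let _ := Fintype.ofFinite ι
  obtain ⟨V, hV, h⟩ := 𝓤.exists_le_finset Finset.univ W fun i _ => hW i
  exact ⟨V, hV, fun i => h i (Finset.mem_univ i)⟩

end Levels

section CommonLevel

variable {𝓤 : Levels G} {A : Rep.{0} k G}

/-- A function on `G` which is right-invariant under a subgroup of finite index takes its values
in a smooth module: then a single level fixes all the values. -/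
lemma exists_level_fix_of_rightInv (hA : IsSmooth 𝓤 A) {X : Type*} (val : X → A)
    (U : Subgroup G) (hU : U ∈ 𝓤.sets) (q : X → G ⧸ U) (hq : ∀ x y, q x = q y → val x = val y) :
    ∃ W ∈ 𝓤.sets, W ≤ U ∧ ∀ x, ∀ s ∈ W, A.ρ s (val x) = val x := by
  classical
  have := 𝓤.finiteIndex U hU
  have : Finite (G ⧸ U) := Subgroup.finite_quotient_of_finiteIndex
  -- choose for every coset a level fixing the value at (any) point above it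
  have key : ∀ c : G ⧸ U, ∃ W ∈ 𝓤.sets, ∀ x, q x = c → ∀ s ∈ W, A.ρ s (val x) = val x := by
    intro c
    by_cases hc : ∃ x, q x = c
    · obtain ⟨x₀, hx₀⟩ := hc
      obtain ⟨W, hW, hfix⟩ := hA (val x₀)
      refine ⟨W, hW, fun x hx s hs => ?_⟩
      rw [hq x x₀ (hx.trans hx₀.symm)]
      exact hfix s hs
    · obtain ⟨W, hW⟩ := 𝓤.nonempty
      exact ⟨W, hW, fun x hx => (hc ⟨x, hx⟩).elim⟩
  choose W hW hfix using key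
  obtain ⟨V, hV, hle⟩ := 𝓤.exists_le_of_finite W hW
  obtain ⟨V', hV', hle'⟩ := 𝓤.directed V hV U hU
  exact ⟨V', hV', hle'.trans inf_le_right, fun x s hs =>
    hfix (q x) x rfl s (hle (q x) ((hle'.trans inf_le_left) hs))⟩

/-- A level-constant 1-cochain with values in a smooth module: a single level `W` gives the
invariance and fixes all the values. -/
lemma IsLC₁.exists_level (hA : IsSmooth 𝓤 A) {a : G → A} (ha : IsLC₁ 𝓤 a) :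
    ∃ W ∈ 𝓤.sets, (∀ g s, s ∈ W → a (g * s) = a g) ∧ ∀ g, ∀ s ∈ W, A.ρ s (a g) = a g := by
  obtain ⟨U, hU, hinv⟩ := ha
  obtain ⟨W, hW, hWU, hfix⟩ := exists_level_fix_of_rightInv hA a U hU
    (fun g => (QuotientGroup.mk g : G ⧸ U)) (fun x y hxy => by
      have h1 : x⁻¹ * y ∈ U := QuotientGroup.eq.1 hxy
      have := hinv x (x⁻¹ * y) h1
      rw [mul_inv_cancel_left] at this
      exact this.symm)
  exact ⟨W, hW, fun g s hs => hinv g s (hWU hs), hfix⟩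

/-- `δ⁰ b` is level-constant when `b` lies in a smooth module. -/
lemma isLC₁_δ0 (hA : IsSmooth 𝓤 A) (b : A) : IsLC₁ 𝓤 (δ0 A b) := by
  obtain ⟨U, hU, hfix⟩ := hA b
  refine ⟨U, hU, fun g s hs => ?_⟩
  simp only [δ0_apply, map_mul, Module.End.mul_apply, hfix s hs]

/-- `δ¹ a` is level-constant when `a` is level-constant with values in a smooth module. -/
lemma IsLC₁.δ1 (hA : IsSmooth 𝓤 A) {a : G → A} (ha : IsLC₁ 𝓤 a) : IsLC₂ 𝓤 (δ1 A a) := by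
  obtain ⟨W, hW, hinv, hfix⟩ := ha.exists_level hA
  have hn := 𝓤.normal W hW
  refine ⟨W, hW, fun g h s s' hs hs' => ?_⟩
  simp only [δ1_apply]
  have h1 : a (h * s') = a h := hinv h s' hs'
  have h2 : a (g * s) = a g := hinv g s hs
  have h3 : a (g * s * (h * s')) = a (g * h) := by
    have : g * s * (h * s') = g * h * ((h⁻¹ * s * h) * s') := by group
    rw [this]
    refine hinv _ _ (W.mul_mem ?_ hs')
    have := hn.conj_mem s hs h⁻¹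
    simpa using this
  rw [h1, h2, h3, map_mul, Module.End.mul_apply, hfix h s hs]

end CommonLevel

/-! ### `D¹` preserves level-constancy on smooth complexes -/

section DLC

variable {𝓤 : Levels G} {K : Cx k G}

lemma D1_mem_lcT2 (hK : K.Smooth 𝓤) {c : T1 K} (hc : c ∈ lcT1 𝓤 K) : D1 K c ∈ lcT2 𝓤 K := by
  have hc1 : IsLC₁ 𝓤 c.1 := hc.1
  refine ⟨hc1.δ1 hK.1, ?_⟩
  show IsLC₁ 𝓤 (K.dco G c.1 - δ0 K.K1 c.2)
  have h1 : IsLC₁ 𝓤 (K.dco G c.1) := hc1.comp K.d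
  have h2 : IsLC₁ 𝓤 (-(δ0 K.K1 c.2)) := (isLC₁_δ0 hK.2 c.2).comp (fun x => -x)
  rw [sub_eq_add_neg]
  exact h1.add h2

lemma BB2_le_ZZ2 (hK : K.Smooth 𝓤) : BB2 𝓤 K ≤ ZZ2 𝓤 K := by
  rintro _ ⟨c, hc, rfl⟩
  exact ⟨by simpa using D2_D1 K c, D1_mem_lcT2 hK hc⟩

lemma D0_mem_lcT1 (hK : K.Smooth 𝓤) (x : K.K0) : D0 K x ∈ lcT1 𝓤 K :=
  ⟨isLC₁_δ0 hK.1 x, Submodule.mem_top⟩

lemma BB1_le_ZZ1 (hK : K.Smooth 𝓤) : BB1 K ≤ ZZ1 𝓤 K := by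
  rintro _ ⟨x, rfl⟩
  exact ⟨by simpa using D1_D0 K x, D0_mem_lcT1 hK x⟩

end DLC

/-! ### Maps induced by a morphism of complexes -/

namespace CxHom

variable {K L : Cx k G} (φ : CxHom K L)

/-- The induced map on total 1-cochains. -/
def t1 : T1 K →ₗ[k] T1 L := (φ.f0.compLeft G).prodMap φ.f1

/-- The induced map on total 2-cochains. -/
def t2 : T2 K →ₗ[k] T2 L := (φ.f0.compLeft (G × G)).prodMap (φ.f1.compLeft G)

/-- The induced map on total 3-cochains. -/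
def t3 : T3 K →ₗ[k] T3 L := (φ.f0.compLeft (G × G × G)).prodMap (φ.f1.compLeft (G × G))

@[simp] lemma t1_fst (c : T1 K) (g : G) : (φ.t1 c).1 g = φ.f0 (c.1 g) := rfl
@[simp] lemma t1_snd (c : T1 K) : (φ.t1 c).2 = φ.f1 c.2 := rfl
@[simp] lemma t2_fst (c : T2 K) (p : G × G) : (φ.t2 c).1 p = φ.f0 (c.1 p) := rfl
@[simp] lemma t2_snd (c : T2 K) (g : G) : (φ.t2 c).2 g = φ.f1 (c.2 g) := rfl
@[simp] lemma t3_fst (c : T3 K) (p : G × G × G) : (φ.t3 c).1 p = φ.f0 (c.1 p) := rfl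
@[simp] lemma t3_snd (c : T3 K) (p : G × G) : (φ.t3 c).2 p = φ.f1 (c.2 p) := rfl

lemma D0_t (x : K.K0) : D0 L (φ.f0 x) = φ.t1 (D0 K x) := by
  refine Prod.ext ?_ ?_
  · funext g
    simp [φ.comm0]
  · simp [φ.commd]

lemma D1_t (c : T1 K) : D1 L (φ.t1 c) = φ.t2 (D1 K c) := by
  refine Prod.ext ?_ ?_
  · funext p
    simp [φ.comm0]
  · funext g
    simp [φ.comm1, φ.commd]

lemma D2_t (z : T2 K) : D2 L (φ.t2 z) = φ.t3 (D2 K z) := by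
  refine Prod.ext ?_ ?_
  · funext p
    simp [φ.comm0]
  · funext p
    simp [φ.comm1, φ.commd]

variable (𝓤 : Levels G)

lemma t1_mem_lcT1 {c : T1 K} (hc : c ∈ lcT1 𝓤 K) : φ.t1 c ∈ lcT1 𝓤 L :=
  ⟨IsLC₁.comp (show IsLC₁ 𝓤 c.1 from hc.1) φ.f0, Submodule.mem_top⟩

lemma t2_mem_lcT2 {c : T2 K} (hc : c ∈ lcT2 𝓤 K) : φ.t2 c ∈ lcT2 𝓤 L :=
  ⟨IsLC₂.comp (show IsLC₂ 𝓤 c.1 from hc.1) φ.f0, IsLC₁.comp (show IsLC₁ 𝓤 c.2 from hc.2) φ.f1⟩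

lemma t1_mem_ZZ1 {c : T1 K} (hc : c ∈ ZZ1 𝓤 K) : φ.t1 c ∈ ZZ1 𝓤 L := by
  refine ⟨?_, φ.t1_mem_lcT1 𝓤 hc.2⟩
  have h : D1 K c = 0 := hc.1
  show D1 L (φ.t1 c) = 0
  rw [φ.D1_t, h, map_zero]

lemma t2_mem_ZZ2 {c : T2 K} (hc : c ∈ ZZ2 𝓤 K) : φ.t2 c ∈ ZZ2 𝓤 L := by
  refine ⟨?_, φ.t2_mem_lcT2 𝓤 hc.2⟩
  have h : D2 K c = 0 := hc.1
  show D2 L (φ.t2 c) = 0
  rw [φ.D2_t, h, map_zero]

/-- The induced map on `HH⁰`. -/
def hh0 : ↥(HH0 K) →ₗ[k] ↥(HH0 L) :=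
  (φ.f0.comp (HH0 K).subtype).codRestrict (HH0 L) fun x => by
    have h : D0 K (x : K.K0) = 0 := x.2
    show D0 L (φ.f0 x) = 0
    rw [φ.D0_t, h, map_zero]

/-- The induced map on smooth total 1-cocycles. -/
def zz1 : ↥(ZZ1 𝓤 K) →ₗ[k] ↥(ZZ1 𝓤 L) :=
  (φ.t1.comp (ZZ1 𝓤 K).subtype).codRestrict (ZZ1 𝓤 L) fun c => φ.t1_mem_ZZ1 𝓤 c.2

/-- The induced map on smooth total 2-cocycles. -/
def zz2 : ↥(ZZ2 𝓤 K) →ₗ[k] ↥(ZZ2 𝓤 L) :=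
  (φ.t2.comp (ZZ2 𝓤 K).subtype).codRestrict (ZZ2 𝓤 L) fun c => φ.t2_mem_ZZ2 𝓤 c.2

@[simp] lemma hh0_coe (x : ↥(HH0 K)) : ((φ.hh0 x : ↥(HH0 L)) : L.K0) = φ.f0 x := rfl
@[simp] lemma zz1_coe (c : ↥(ZZ1 𝓤 K)) : ((φ.zz1 𝓤 c : ↥(ZZ1 𝓤 L)) : T1 L) = φ.t1 c := rfl
@[simp] lemma zz2_coe (c : ↥(ZZ2 𝓤 K)) : ((φ.zz2 𝓤 c : ↥(ZZ2 𝓤 L)) : T2 L) = φ.t2 c := rfl

/-- The induced map on `HH¹`. -/
def hh1 : HH1 𝓤 K →ₗ[k] HH1 𝓤 L :=
  Submodule.mapQ _ _ (φ.zz1 𝓤) (by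
    rintro c ⟨x, hx⟩
    exact ⟨φ.f0 x, by
      rw [φ.D0_t, hx]
      rfl⟩)

/-- The induced map on `HH²`. -/
def hh2 : HH2 𝓤 K →ₗ[k] HH2 𝓤 L :=
  Submodule.mapQ _ _ (φ.zz2 𝓤) (by
    rintro c ⟨d, hd, hdc⟩
    exact ⟨φ.t1 d, φ.t1_mem_lcT1 𝓤 hd, by
      rw [φ.D1_t, hdc]
      rfl⟩)

@[simp] lemma hh1_mk (c : ↥(ZZ1 𝓤 K)) : φ.hh1 𝓤 (HH1π 𝓤 K c) = HH1π 𝓤 L (φ.zz1 𝓤 c) := rfl
@[simp] lemma hh2_mk (c : ↥(ZZ2 𝓤 K)) : φ.hh2 𝓤 (HH2π 𝓤 K c) = HH2π 𝓤 L (φ.zz2 𝓤 c) := rfl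

end CxHom

/-! ### Termwise short exact sequences: lifting and descending cochains -/

namespace CxShortExact

variable {𝓤 : Levels G} {K' K K'' : Cx k G} {f : CxHom K' K} {g : CxHom K K''}

section
variable (h : CxShortExact f g)
include h

lemma g_f0 (y : K'.K0) : g.f0 (f.f0 y) = 0 := (h.exact0 _).2 ⟨y, rfl⟩

lemma g_f1 (y : K'.K1) : g.f1 (f.f1 y) = 0 := (h.exact1 _).2 ⟨y, rfl⟩

lemma g_t1_f_t1 (c : T1 K') : g.t1 (f.t1 c) = 0 := by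
  refine Prod.ext ?_ ?_
  · funext x
    simp [h.g_f0]
  · simp [h.g_f1]

lemma g_t2_f_t2 (c : T2 K') : g.t2 (f.t2 c) = 0 := by
  refine Prod.ext ?_ ?_
  · funext x
    simp [h.g_f0]
  · funext x
    simp [h.g_f1]

lemma f_t1_injective : Function.Injective f.t1 := by
  intro c d hcd
  refine Prod.ext ?_ ?_
  · funext x
    exact h.inj0 (congrFun (congrArg Prod.fst hcd) x)
  · exact h.inj1 (congrArg Prod.snd hcd)

lemma f_t2_injective : Function.Injective f.t2 := by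
  intro c d hcd
  refine Prod.ext ?_ ?_
  · funext x
    exact h.inj0 (congrFun (congrArg Prod.fst hcd) x)
  · funext x
    exact h.inj1 (congrFun (congrArg Prod.snd hcd) x)

lemma f_t3_injective : Function.Injective f.t3 := by
  intro c d hcd
  refine Prod.ext ?_ ?_
  · funext x
    exact h.inj0 (congrFun (congrArg Prod.fst hcd) x)
  · funext x
    exact h.inj1 (congrFun (congrArg Prod.snd hcd) x)

/-- Level-constant 1-cochains of `K''` lift to level-constant 1-cochains of `K`. -/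
lemma exists_lift_lcT1 {c'' : T1 K''} (hc : c'' ∈ lcT1 𝓤 K'') :
    ∃ c ∈ lcT1 𝓤 K, g.t1 c = c'' := by
  have hc1 : IsLC₁ 𝓤 c''.1 := hc.1
  obtain ⟨b, hb⟩ := h.surj1 c''.2
  refine ⟨(fun x => Function.surjInv h.surj0 (c''.1 x), b),
    ⟨hc1.comp (Function.surjInv h.surj0), Submodule.mem_top⟩, ?_⟩
  refine Prod.ext ?_ ?_
  · funext x
    exact Function.surjInv_eq h.surj0 _
  · exact hb

/-- A 1-cochain of `K` killed by `g` comes from `K'`. -/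
lemma exists_pre_t1 {c : T1 K} (hc : g.t1 c = 0) : ∃ c' : T1 K', f.t1 c' = c := by
  have h1 : ∀ x, ∃ y, f.f0 y = c.1 x := fun x =>
    (h.exact0 _).1 (congrFun (congrArg Prod.fst hc) x)
  obtain ⟨b, hb⟩ := (h.exact1 _).1 (congrArg Prod.snd hc)
  choose a ha using h1
  exact ⟨(a, b), Prod.ext (funext ha) hb⟩

/-- A 2-cochain of `K` killed by `g` comes from `K'`. -/
lemma exists_pre_t2 {z : T2 K} (hz : g.t2 z = 0) : ∃ z' : T2 K', f.t2 z' = z := by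
  have h1 : ∀ x, ∃ y, f.f0 y = z.1 x := fun x =>
    (h.exact0 _).1 (congrFun (congrArg Prod.fst hz) x)
  have h2 : ∀ x, ∃ y, f.f1 y = z.2 x := fun x =>
    (h.exact1 _).1 (congrFun (congrArg Prod.snd hz) x)
  choose a ha using h1
  choose b hb using h2
  exact ⟨(a, b), Prod.ext (funext ha) (funext hb)⟩

/-- Level-constancy descends along the injection `f` (degree 1). -/
lemma mem_lcT1_of_f {c' : T1 K'} (hc : f.t1 c' ∈ lcT1 𝓤 K) : c' ∈ lcT1 𝓤 K' := by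
  obtain ⟨U, hU, hinv⟩ := (show IsLC₁ 𝓤 (f.t1 c').1 from hc.1)
  exact ⟨⟨U, hU, fun x s hs => h.inj0 (hinv x s hs)⟩, Submodule.mem_top⟩

/-- Level-constancy descends along the injection `f` (degree 2). -/
lemma mem_lcT2_of_f {z' : T2 K'} (hz : f.t2 z' ∈ lcT2 𝓤 K) : z' ∈ lcT2 𝓤 K' := by
  obtain ⟨U, hU, hinv⟩ := (show IsLC₂ 𝓤 (f.t2 z').1 from hz.1)
  obtain ⟨V, hV, hinv'⟩ := (show IsLC₁ 𝓤 (f.t2 z').2 from hz.2)
  exact ⟨⟨U, hU, fun x y s s' hs hs' => h.inj0 (hinv x y s s' hs hs')⟩,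
    ⟨V, hV, fun x s hs => h.inj1 (hinv' x s hs)⟩⟩

/-- If `f z'` is a cocycle of `K` then `z'` is a cocycle of `K'` (degree 2). -/
lemma mem_ZZ2_of_f {z' : T2 K'} (hz : f.t2 z' ∈ ZZ2 𝓤 K) : z' ∈ ZZ2 𝓤 K' := by
  refine ⟨?_, h.mem_lcT2_of_f hz.2⟩
  have h0 : D2 K (f.t2 z') = 0 := hz.1
  rw [f.D2_t] at h0
  exact h.f_t3_injective (h0.trans (map_zero _).symm)

/-- If `f c'` is a cocycle of `K` then `c'` is a cocycle of `K'` (degree 1). -/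
lemma mem_ZZ1_of_f {c' : T1 K'} (hc : f.t1 c' ∈ ZZ1 𝓤 K) : c' ∈ ZZ1 𝓤 K' := by
  refine ⟨?_, h.mem_lcT1_of_f hc.2⟩
  have h0 : D1 K (f.t1 c') = 0 := hc.1
  rw [f.D1_t] at h0
  exact h.f_t2_injective (h0.trans (map_zero _).symm)

end

end CxShortExact

/-! ### Class maps: kernels -/

section Classes

variable (𝓤 : Levels G) (K : Cx k G)

lemma HH1π_eq_zero_iff (c : ↥(ZZ1 𝓤 K)) : HH1π 𝓤 K c = 0 ↔ (c : T1 K) ∈ BB1 K := by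
  rw [Submodule.mkQ_apply, Submodule.Quotient.mk_eq_zero, Submodule.mem_comap]
  rfl

lemma HH2π_eq_zero_iff (c : ↥(ZZ2 𝓤 K)) : HH2π 𝓤 K c = 0 ↔ (c : T2 K) ∈ BB2 𝓤 K := by
  rw [Submodule.mkQ_apply, Submodule.Quotient.mk_eq_zero, Submodule.mem_comap]
  rfl

lemma HH1π_surjective : Function.Surjective (HH1π 𝓤 K) := Submodule.mkQ_surjective _

lemma HH2π_surjective : Function.Surjective (HH2π 𝓤 K) := Submodule.mkQ_surjective _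

lemma HH1π_eq_iff (c d : ↥(ZZ1 𝓤 K)) :
    HH1π 𝓤 K c = HH1π 𝓤 K d ↔ (c : T1 K) - d ∈ BB1 K := by
  rw [← sub_eq_zero, ← map_sub, HH1π_eq_zero_iff]
  rfl

lemma HH2π_eq_iff (c d : ↥(ZZ2 𝓤 K)) :
    HH2π 𝓤 K c = HH2π 𝓤 K d ↔ (c : T2 K) - d ∈ BB2 𝓤 K := by
  rw [← sub_eq_zero, ← map_sub, HH2π_eq_zero_iff]
  rfl

end Classes

/-! ### The connecting maps -/

section Conn

variable (𝓤 : Levels G) {K' K K'' : Cx k G} (f : CxHom K' K) (g : CxHom K K'')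

/-- The relation defining the connecting map `HH¹(K'') → HH²(K')`:
`z''` lifts to a level-constant `c` and `f z' = D¹ c`. -/
def Conn1Rel (z'' : T1 K'') (z' : T2 K') : Prop :=
  ∃ c ∈ lcT1 𝓤 K, g.t1 c = z'' ∧ f.t2 z' = D1 K c

/-- The relation defining the connecting map `HH⁰(K'') → HH¹(K')`. -/
def Conn0Rel (x'' : K''.K0) (c' : T1 K') : Prop :=
  ∃ x : K.K0, g.f0 x = x'' ∧ f.t1 c' = D0 K x

variable {𝓤 f g}

lemma Conn1Rel.add {z₁'' z₂'' : T1 K''} {z₁' z₂' : T2 K'} (h₁ : Conn1Rel 𝓤 f g z₁'' z₁')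
    (h₂ : Conn1Rel 𝓤 f g z₂'' z₂') : Conn1Rel 𝓤 f g (z₁'' + z₂'') (z₁' + z₂') := by
  obtain ⟨c₁, hc₁, hg₁, hf₁⟩ := h₁
  obtain ⟨c₂, hc₂, hg₂, hf₂⟩ := h₂
  exact ⟨c₁ + c₂, Submodule.add_mem _ hc₁ hc₂, by rw [map_add, hg₁, hg₂],
    by rw [map_add, map_add, hf₁, hf₂]⟩

lemma Conn1Rel.sub {z₁'' z₂'' : T1 K''} {z₁' z₂' : T2 K'} (h₁ : Conn1Rel 𝓤 f g z₁'' z₁')
    (h₂ : Conn1Rel 𝓤 f g z₂'' z₂') : Conn1Rel 𝓤 f g (z₁'' - z₂'') (z₁' - z₂') := by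
  obtain ⟨c₁, hc₁, hg₁, hf₁⟩ := h₁
  obtain ⟨c₂, hc₂, hg₂, hf₂⟩ := h₂
  exact ⟨c₁ - c₂, Submodule.sub_mem _ hc₁ hc₂, by rw [map_sub, hg₁, hg₂],
    by rw [map_sub, map_sub, hf₁, hf₂]⟩

lemma Conn1Rel.smul (a : k) {z'' : T1 K''} {z' : T2 K'} (h₁ : Conn1Rel 𝓤 f g z'' z') :
    Conn1Rel 𝓤 f g (a • z'') (a • z') := by
  obtain ⟨c₁, hc₁, hg₁, hf₁⟩ := h₁
  exact ⟨a • c₁, Submodule.smul_mem _ a hc₁, by rw [map_smul, hg₁],
    by rw [map_smul, map_smul, hf₁]⟩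

lemma Conn0Rel.add {x₁'' x₂'' : K''.K0} {c₁' c₂' : T1 K'} (h₁ : Conn0Rel f g x₁'' c₁')
    (h₂ : Conn0Rel f g x₂'' c₂') : Conn0Rel f g (x₁'' + x₂'') (c₁' + c₂') := by
  obtain ⟨c₁, hg₁, hf₁⟩ := h₁
  obtain ⟨c₂, hg₂, hf₂⟩ := h₂
  exact ⟨c₁ + c₂, by rw [map_add, hg₁, hg₂], by rw [map_add, map_add, hf₁, hf₂]⟩

lemma Conn0Rel.sub {x₁'' x₂'' : K''.K0} {c₁' c₂' : T1 K'} (h₁ : Conn0Rel f g x₁'' c₁')
    (h₂ : Conn0Rel f g x₂'' c₂') : Conn0Rel f g (x₁'' - x₂'') (c₁' - c₂') := by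
  obtain ⟨c₁, hg₁, hf₁⟩ := h₁
  obtain ⟨c₂, hg₂, hf₂⟩ := h₂
  exact ⟨c₁ - c₂, by rw [map_sub, hg₁, hg₂], by rw [map_sub, map_sub, hf₁, hf₂]⟩

lemma Conn0Rel.smul (a : k) {x'' : K''.K0} {c' : T1 K'} (h₁ : Conn0Rel f g x'' c') :
    Conn0Rel f g (a • x'') (a • c') := by
  obtain ⟨c₁, hg₁, hf₁⟩ := h₁
  exact ⟨a • c₁, by rw [map_smul, hg₁], by rw [map_smul, map_smul, hf₁]⟩

section
variable (h : CxShortExact f g) (hK : K.Smooth 𝓤)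
include h hK

/-- Existence for the relation `Conn1Rel`. -/
lemma Conn1Rel.exists {z'' : T1 K''} (hz : z'' ∈ ZZ1 𝓤 K'') :
    ∃ z' : T2 K', z' ∈ ZZ2 𝓤 K' ∧ Conn1Rel 𝓤 f g z'' z' := by
  obtain ⟨c, hc, hgc⟩ := h.exists_lift_lcT1 hz.2
  have h0 : g.t2 (D1 K c) = 0 := by
    have hz0 : D1 K'' z'' = 0 := hz.1
    rw [← g.D1_t, hgc, hz0]
  obtain ⟨z', hz'⟩ := h.exists_pre_t2 h0
  refine ⟨z', h.mem_ZZ2_of_f ?_, c, hc, hgc, hz'⟩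
  rw [hz']
  exact BB2_le_ZZ2 hK ⟨c, hc, rfl⟩

/-- `Conn1Rel` sends coboundaries to coboundaries. -/
lemma Conn1Rel.mem_BB2 {z'' : T1 K''} {z' : T2 K'} (hrel : Conn1Rel 𝓤 f g z'' z')
    (hz : z'' ∈ BB1 K'') : z' ∈ BB2 𝓤 K' := by
  obtain ⟨c, hc, hgc, hfz⟩ := hrel
  obtain ⟨x'', hx''⟩ := hz
  obtain ⟨x, hx⟩ := h.surj0 x''
  have h0 : g.t1 (c - D0 K x) = 0 := by
    rw [map_sub, hgc, ← g.D0_t, hx, hx'', sub_self]
  obtain ⟨c', hc'⟩ := h.exists_pre_t1 h0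
  refine ⟨c', h.mem_lcT1_of_f ?_, ?_⟩
  · rw [hc']
    exact Submodule.sub_mem _ hc (D0_mem_lcT1 hK x)
  · apply h.f_t2_injective
    rw [← f.D1_t, hc', map_sub, D1_D0, sub_zero, hfz]

/-- Existence for the relation `Conn0Rel`. -/
lemma Conn0Rel.exists {x'' : K''.K0} (hx : x'' ∈ HH0 K'') :
    ∃ c' : T1 K', c' ∈ ZZ1 𝓤 K' ∧ Conn0Rel f g x'' c' := by
  obtain ⟨x, hgx⟩ := h.surj0 x''
  have h0 : g.t1 (D0 K x) = 0 := by
    have hx0 : D0 K'' x'' = 0 := hx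
    rw [← g.D0_t, hgx, hx0]
  obtain ⟨c', hc'⟩ := h.exists_pre_t1 h0
  refine ⟨c', h.mem_ZZ1_of_f ?_, x, hgx, hc'⟩
  rw [hc']
  exact BB1_le_ZZ1 hK ⟨x, rfl⟩

omit hK in
/-- `Conn0Rel` sends `0` to coboundaries. -/
lemma Conn0Rel.mem_BB1 {c' : T1 K'} (hrel : Conn0Rel f g 0 c') : c' ∈ BB1 K' := by
  obtain ⟨x, hgx, hfc⟩ := hrel
  obtain ⟨x', hx'⟩ := (h.exact0 x).1 hgx
  refine ⟨x', ?_⟩
  apply h.f_t1_injective
  rw [← f.D0_t, hx', hfc]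

end

end Conn

/-! ### The connecting maps as linear maps -/

namespace CxShortExact

variable {𝓤 : Levels G} {K' K K'' : Cx k G} {f : CxHom K' K} {g : CxHom K K''}
  (h : CxShortExact f g) (hK : K.Smooth 𝓤)

/-- The connecting map on cocycles `ZZ¹(K'') → HH²(K')`. -/
noncomputable def conn1Z : ↥(ZZ1 𝓤 K'') →ₗ[k] HH2 𝓤 K' where
  toFun z'' := HH2π 𝓤 K' ⟨(Conn1Rel.exists h hK z''.2).choose,
    (Conn1Rel.exists h hK z''.2).choose_spec.1⟩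
  map_add' z₁ z₂ := by
    rw [← map_add, HH2π_eq_iff]
    have h₁ := (Conn1Rel.exists h hK z₁.2).choose_spec.2
    have h₂ := (Conn1Rel.exists h hK z₂.2).choose_spec.2
    have h₃ := (Conn1Rel.exists h hK (z₁ + z₂).2).choose_spec.2
    have h4 := h₃.sub (h₁.add h₂)
    refine Conn1Rel.mem_BB2 h hK h4 ?_
    rw [show ((z₁ + z₂ : ↥(ZZ1 𝓤 K'')) : T1 K'') - (↑z₁ + ↑z₂) = 0 from sub_self _]
    exact Submodule.zero_mem _
  map_smul' a z := by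
    rw [RingHom.id_apply, ← map_smul, HH2π_eq_iff]
    have h₁ := (Conn1Rel.exists h hK z.2).choose_spec.2
    have h₃ := (Conn1Rel.exists h hK (a • z).2).choose_spec.2
    have h4 := h₃.sub (h₁.smul a)
    refine Conn1Rel.mem_BB2 h hK h4 ?_
    rw [show ((a • z : ↥(ZZ1 𝓤 K'')) : T1 K'') - a • (z : T1 K'') = 0 from sub_self _]
    exact Submodule.zero_mem _

lemma conn1Z_eq (z'' : ↥(ZZ1 𝓤 K'')) (z' : ↥(ZZ2 𝓤 K'))
    (hrel : Conn1Rel 𝓤 f g (z'' : T1 K'') (z' : T2 K')) :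
    conn1Z h hK z'' = HH2π 𝓤 K' z' := by
  show HH2π 𝓤 K' _ = _
  rw [HH2π_eq_iff]
  have h₁ := (Conn1Rel.exists h hK z''.2).choose_spec.2
  refine Conn1Rel.mem_BB2 h hK (h₁.sub hrel) ?_
  rw [sub_self]
  exact Submodule.zero_mem _

/-- The connecting map `∂¹ : HH¹(K'') → HH²(K')`. -/
noncomputable def conn1 : HH1 𝓤 K'' →ₗ[k] HH2 𝓤 K' :=
  Submodule.liftQ _ (conn1Z h hK) (by
    intro z'' hz
    rw [LinearMap.mem_ker]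
    have hz' : (z'' : T1 K'') ∈ BB1 K'' := hz
    have h₁ := (Conn1Rel.exists h hK z''.2).choose_spec
    show HH2π 𝓤 K' _ = 0
    rw [HH2π_eq_zero_iff]
    exact Conn1Rel.mem_BB2 h hK h₁.2 hz')

/-- Characterisation of `∂¹` on classes. -/
lemma conn1_mk (z'' : ↥(ZZ1 𝓤 K'')) (z' : ↥(ZZ2 𝓤 K'))
    (hrel : Conn1Rel 𝓤 f g (z'' : T1 K'') (z' : T2 K')) :
    conn1 h hK (HH1π 𝓤 K'' z'') = HH2π 𝓤 K' z' := by
  rw [conn1, Submodule.mkQ_apply, Submodule.liftQ_apply]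
  exact conn1Z_eq h hK z'' z' hrel

/-- The connecting map on `HH⁰(K'') → HH¹(K')`. -/
noncomputable def conn0 : ↥(HH0 K'') →ₗ[k] HH1 𝓤 K' where
  toFun x'' := HH1π 𝓤 K' ⟨(Conn0Rel.exists h hK x''.2).choose,
    (Conn0Rel.exists h hK x''.2).choose_spec.1⟩
  map_add' z₁ z₂ := by
    rw [← map_add, HH1π_eq_iff]
    have h₁ := (Conn0Rel.exists (𝓤 := 𝓤) h hK z₁.2).choose_spec.2
    have h₂ := (Conn0Rel.exists (𝓤 := 𝓤) h hK z₂.2).choose_spec.2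
    have h₃ := (Conn0Rel.exists (𝓤 := 𝓤) h hK (z₁ + z₂).2).choose_spec.2
    have h4 := h₃.sub (h₁.add h₂)
    refine Conn0Rel.mem_BB1 h ?_
    rw [show ((z₁ + z₂ : ↥(HH0 K'')) : K''.K0) - (↑z₁ + ↑z₂) = 0 from sub_self _] at h4
    exact h4
  map_smul' a z := by
    rw [RingHom.id_apply, ← map_smul, HH1π_eq_iff]
    have h₁ := (Conn0Rel.exists (𝓤 := 𝓤) h hK z.2).choose_spec.2
    have h₃ := (Conn0Rel.exists (𝓤 := 𝓤) h hK (a • z).2).choose_spec.2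
    have h4 := h₃.sub (h₁.smul a)
    refine Conn0Rel.mem_BB1 h ?_
    rw [show ((a • z : ↥(HH0 K'')) : K''.K0) - a • (z : K''.K0) = 0 from sub_self _] at h4
    exact h4

/-- Characterisation of `∂⁰`. -/
lemma conn0_eq (x'' : ↥(HH0 K'')) (c' : ↥(ZZ1 𝓤 K'))
    (hrel : Conn0Rel f g (x'' : K''.K0) (c' : T1 K')) :
    conn0 h hK x'' = HH1π 𝓤 K' c' := by
  show HH1π 𝓤 K' _ = _
  rw [HH1π_eq_iff]
  have h₁ := (Conn0Rel.exists (𝓤 := 𝓤) h hK x''.2).choose_spec.2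
  refine Conn0Rel.mem_BB1 h ?_
  have := h₁.sub hrel
  rwa [sub_self] at this

/-! ### Exactness -/

/-- (E0) exactness at `HH⁰(K'')`. -/
theorem exact_HH0_right (x'' : ↥(HH0 K'')) :
    conn0 (𝓤 := 𝓤) h hK x'' = 0 ↔ ∃ x : ↥(HH0 K), g.hh0 x = x'' := by
  constructor
  · intro h0
    obtain ⟨c', hc', x, hgx, hfc⟩ := Conn0Rel.exists (𝓤 := 𝓤) h hK x''.2
    rw [conn0_eq h hK x'' ⟨c', hc'⟩ ⟨x, hgx, hfc⟩, HH1π_eq_zero_iff] at h0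
    obtain ⟨x', hx'⟩ := h0
    have hmem : x - f.f0 x' ∈ HH0 K := by
      show D0 K (x - f.f0 x') = 0
      rw [map_sub, f.D0_t, hx', ← hfc, sub_self]
    refine ⟨⟨x - f.f0 x', hmem⟩, Subtype.ext ?_⟩
    show g.f0 (x - f.f0 x') = x''
    rw [map_sub, hgx, h.g_f0, sub_zero]
  · rintro ⟨x, rfl⟩
    have h0 : D0 K (x : K.K0) = 0 := x.2
    have := conn0_eq (𝓤 := 𝓤) h hK (g.hh0 x) 0 ⟨x, rfl, by simp [h0]⟩
    rw [this, map_zero]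

/-- (E1) exactness at `HH¹(K')`. -/
theorem exact_HH1_left (y : HH1 𝓤 K') :
    f.hh1 𝓤 y = 0 ↔ ∃ x'' : ↥(HH0 K''), conn0 (𝓤 := 𝓤) h hK x'' = y := by
  obtain ⟨c', rfl⟩ := HH1π_surjective 𝓤 K' y
  constructor
  · intro h0
    rw [CxHom.hh1_mk, HH1π_eq_zero_iff] at h0
    obtain ⟨x, hx⟩ := h0
    have hmem : g.f0 x ∈ HH0 K'' := by
      show D0 K'' (g.f0 x) = 0
      rw [g.D0_t, hx]
      exact h.g_t1_f_t1 _
    exact ⟨⟨g.f0 x, hmem⟩, conn0_eq h hK _ c' ⟨x, rfl, hx.symm⟩⟩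
  · rintro ⟨x'', hx''⟩
    obtain ⟨d', hd', x, hgx, hfd⟩ := Conn0Rel.exists (𝓤 := 𝓤) h hK x''.2
    rw [conn0_eq h hK x'' ⟨d', hd'⟩ ⟨x, hgx, hfd⟩] at hx''
    rw [← hx'', CxHom.hh1_mk, HH1π_eq_zero_iff]
    exact ⟨x, hfd.symm⟩

include h hK in
/-- (E2) exactness at `HH¹(K)`. -/
theorem exact_HH1_mid (y : HH1 𝓤 K) :
    g.hh1 𝓤 y = 0 ↔ ∃ y' : HH1 𝓤 K', f.hh1 𝓤 y' = y := by
  obtain ⟨c, rfl⟩ := HH1π_surjective 𝓤 K y
  constructor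
  · intro h0
    rw [CxHom.hh1_mk, HH1π_eq_zero_iff] at h0
    obtain ⟨x'', hx''⟩ := h0
    obtain ⟨x, hx⟩ := h.surj0 x''
    have h1 : g.t1 ((c : T1 K) - D0 K x) = 0 := by
      rw [map_sub, ← g.D0_t, hx, hx'']
      exact sub_self _
    obtain ⟨c', hc'⟩ := h.exists_pre_t1 h1
    have hmem : c' ∈ ZZ1 𝓤 K' := by
      apply h.mem_ZZ1_of_f
      rw [hc']
      exact Submodule.sub_mem _ c.2 (BB1_le_ZZ1 hK ⟨x, rfl⟩)
    refine ⟨HH1π 𝓤 K' ⟨c', hmem⟩, ?_⟩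
    rw [CxHom.hh1_mk, HH1π_eq_iff]
    refine ⟨-x, ?_⟩
    rw [map_neg]
    show -D0 K x = f.t1 c' - c
    rw [hc']
    abel
  · rintro ⟨y', hy'⟩
    obtain ⟨c', rfl⟩ := HH1π_surjective 𝓤 K' y'
    rw [← hy', CxHom.hh1_mk, CxHom.hh1_mk, HH1π_eq_zero_iff]
    show g.t1 (f.t1 c') ∈ BB1 K''
    rw [h.g_t1_f_t1]
    exact Submodule.zero_mem _

/-- (E3) exactness at `HH¹(K'')`. -/
theorem exact_HH1_right (y'' : HH1 𝓤 K'') :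
    conn1 h hK y'' = 0 ↔ ∃ y : HH1 𝓤 K, g.hh1 𝓤 y = y'' := by
  obtain ⟨z'', rfl⟩ := HH1π_surjective 𝓤 K'' y''
  constructor
  · intro h0
    obtain ⟨z', hz', c, hc, hgc, hfz⟩ := Conn1Rel.exists h hK z''.2
    rw [conn1_mk h hK z'' ⟨z', hz'⟩ ⟨c, hc, hgc, hfz⟩, HH2π_eq_zero_iff] at h0
    obtain ⟨c', hc', hD⟩ := h0
    have hmem : c - f.t1 c' ∈ ZZ1 𝓤 K := by
      refine ⟨?_, Submodule.sub_mem _ hc (f.t1_mem_lcT1 𝓤 hc')⟩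
      show D1 K (c - f.t1 c') = 0
      rw [map_sub, f.D1_t, hD, ← hfz]
      exact sub_self _
    refine ⟨HH1π 𝓤 K ⟨c - f.t1 c', hmem⟩, ?_⟩
    rw [CxHom.hh1_mk]
    congr 1
    apply Subtype.ext
    show g.t1 (c - f.t1 c') = z''
    rw [map_sub, hgc, h.g_t1_f_t1, sub_zero]
  · rintro ⟨y, hy⟩
    obtain ⟨c, rfl⟩ := HH1π_surjective 𝓤 K y
    rw [← hy, CxHom.hh1_mk]
    have h0 : D1 K (c : T1 K) = 0 := c.2.1
    have := conn1_mk h hK (g.zz1 𝓤 c) 0 ⟨c, c.2.2, rfl, by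
      rw [h0]
      exact map_zero _⟩
    rw [this, map_zero]

/-- (E4) exactness at `HH²(K')`. -/
theorem exact_HH2_left (w' : HH2 𝓤 K') :
    f.hh2 𝓤 w' = 0 ↔ ∃ y'' : HH1 𝓤 K'', conn1 h hK y'' = w' := by
  obtain ⟨z', rfl⟩ := HH2π_surjective 𝓤 K' w'
  constructor
  · intro h0
    rw [CxHom.hh2_mk, HH2π_eq_zero_iff] at h0
    obtain ⟨c, hc, hD⟩ := h0
    have hD' : D1 K c = f.t2 z' := hD
    have hmem : g.t1 c ∈ ZZ1 𝓤 K'' := by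
      refine ⟨?_, g.t1_mem_lcT1 𝓤 hc⟩
      show D1 K'' (g.t1 c) = 0
      rw [g.D1_t, hD']
      exact h.g_t2_f_t2 _
    exact ⟨HH1π 𝓤 K'' ⟨g.t1 c, hmem⟩, conn1_mk h hK _ z' ⟨c, hc, rfl, hD'.symm⟩⟩
  · rintro ⟨y'', hy''⟩
    obtain ⟨z'', rfl⟩ := HH1π_surjective 𝓤 K'' y''
    obtain ⟨d', hd', c, hc, hgc, hfd⟩ := Conn1Rel.exists h hK z''.2
    rw [conn1_mk h hK z'' ⟨d', hd'⟩ ⟨c, hc, hgc, hfd⟩] at hy''
    rw [← hy'', CxHom.hh2_mk, HH2π_eq_zero_iff]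
    exact ⟨c, hc, hfd.symm⟩

include h hK in
/-- (E5) exactness at `HH²(K)`. -/
theorem exact_HH2_mid (w : HH2 𝓤 K) :
    g.hh2 𝓤 w = 0 ↔ ∃ w' : HH2 𝓤 K', f.hh2 𝓤 w' = w := by
  obtain ⟨z, rfl⟩ := HH2π_surjective 𝓤 K w
  constructor
  · intro h0
    rw [CxHom.hh2_mk, HH2π_eq_zero_iff] at h0
    obtain ⟨c'', hc'', hD⟩ := h0
    have hD' : D1 K'' c'' = g.t2 z := hD
    obtain ⟨c, hc, hgc⟩ := h.exists_lift_lcT1 hc''
    have h1 : g.t2 ((z : T2 K) - D1 K c) = 0 := by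
      rw [map_sub, ← g.D1_t, hgc, hD']
      exact sub_self _
    obtain ⟨z', hz'⟩ := h.exists_pre_t2 h1
    have hmem : z' ∈ ZZ2 𝓤 K' := by
      apply h.mem_ZZ2_of_f
      rw [hz']
      exact Submodule.sub_mem _ z.2 (BB2_le_ZZ2 hK ⟨c, hc, rfl⟩)
    refine ⟨HH2π 𝓤 K' ⟨z', hmem⟩, ?_⟩
    rw [CxHom.hh2_mk, HH2π_eq_iff]
    refine ⟨-c, Submodule.neg_mem _ hc, ?_⟩
    rw [map_neg]
    show -D1 K c = f.t2 z' - z
    rw [hz']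
    abel
  · rintro ⟨w', hw'⟩
    obtain ⟨z', rfl⟩ := HH2π_surjective 𝓤 K' w'
    rw [← hw', CxHom.hh2_mk, CxHom.hh2_mk, HH2π_eq_zero_iff]
    show g.t2 (f.t2 z') ∈ BB2 𝓤 K''
    rw [h.g_t2_f_t2]
    exact Submodule.zero_mem _

end CxShortExact

/-! ### Functoriality -/

namespace CxHom

variable {K L M : Cx k G}

/-- The identity morphism. -/
def id (K : Cx k G) : CxHom K K where
  f0 := LinearMap.id
  f1 := LinearMap.id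
  comm0 _ _ := rfl
  comm1 _ _ := rfl
  commd _ := rfl

/-- Composition of morphisms of complexes. -/
def comp (ψ : CxHom L M) (φ : CxHom K L) : CxHom K M where
  f0 := ψ.f0.comp φ.f0
  f1 := ψ.f1.comp φ.f1
  comm0 g x := by simp [φ.comm0, ψ.comm0]
  comm1 g x := by simp [φ.comm1, ψ.comm1]
  commd x := by simp [φ.commd, ψ.commd]

variable (𝓤 : Levels G)

lemma hh1_id (y : HH1 𝓤 K) : (CxHom.id K).hh1 𝓤 y = y := by
  obtain ⟨c, rfl⟩ := HH1π_surjective 𝓤 K y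
  rfl

lemma hh2_id (y : HH2 𝓤 K) : (CxHom.id K).hh2 𝓤 y = y := by
  obtain ⟨c, rfl⟩ := HH2π_surjective 𝓤 K y
  rfl

lemma hh1_comp (ψ : CxHom L M) (φ : CxHom K L) (y : HH1 𝓤 K) :
    (ψ.comp φ).hh1 𝓤 y = ψ.hh1 𝓤 (φ.hh1 𝓤 y) := by
  obtain ⟨c, rfl⟩ := HH1π_surjective 𝓤 K y
  rfl

lemma hh2_comp (ψ : CxHom L M) (φ : CxHom K L) (y : HH2 𝓤 K) :
    (ψ.comp φ).hh2 𝓤 y = ψ.hh2 𝓤 (φ.hh2 𝓤 y) := by
  obtain ⟨c, rfl⟩ := HH2π_surjective 𝓤 K y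
  rfl

lemma hh0_comp (ψ : CxHom L M) (φ : CxHom K L) (y : ↥(HH0 K)) :
    (ψ.comp φ).hh0 y = ψ.hh0 (φ.hh0 y) := rfl

end CxHom

/-- Naturality of the connecting map `∂¹` for a morphism of termwise short exact sequences. -/
theorem CxShortExact.conn1_natural {𝓤 : Levels G} {K' K K'' L' L L'' : Cx k G}
    {f : CxHom K' K} {g : CxHom K K''} {f₂ : CxHom L' L} {g₂ : CxHom L L''}
    (h : CxShortExact f g) (hK : K.Smooth 𝓤) (h₂ : CxShortExact f₂ g₂) (hL : L.Smooth 𝓤)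
    (α' : CxHom K' L') (α : CxHom K L) (α'' : CxHom K'' L'')
    (hf0 : ∀ x, α.f0 (f.f0 x) = f₂.f0 (α'.f0 x)) (hf1 : ∀ x, α.f1 (f.f1 x) = f₂.f1 (α'.f1 x))
    (hg0 : ∀ x, α''.f0 (g.f0 x) = g₂.f0 (α.f0 x)) (hg1 : ∀ x, α''.f1 (g.f1 x) = g₂.f1 (α.f1 x))
    (y'' : HH1 𝓤 K'') :
    α'.hh2 𝓤 (h.conn1 hK y'') = h₂.conn1 hL (α''.hh1 𝓤 y'') := by
  obtain ⟨z'', rfl⟩ := HH1π_surjective 𝓤 K'' y''
  obtain ⟨z', hz', c, hc, hgc, hfz⟩ := Conn1Rel.exists h hK z''.2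
  rw [h.conn1_mk hK z'' ⟨z', hz'⟩ ⟨c, hc, hgc, hfz⟩, CxHom.hh2_mk, CxHom.hh1_mk]
  symm
  refine h₂.conn1_mk hL _ _ ⟨α.t1 c, α.t1_mem_lcT1 𝓤 hc, ?_, ?_⟩
  · show g₂.t1 (α.t1 c) = α''.t1 z''
    rw [← hgc]
    refine Prod.ext ?_ ?_
    · funext x
      simp [hg0]
    · simp [hg1]
  · show f₂.t2 (α'.t2 z') = D1 L (α.t1 c)
    rw [α.D1_t, ← hfz]
    refine Prod.ext ?_ ?_
    · funext x
      simp [hf0]
    · funext x
      simp [hf1]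

end Fermat.Agent.F4
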