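import Fermat.Agent.F4.Duality
import Fermat.Agent.F4.HyperLES

/-!
# F4 / HyperPair : properties of the pairings `cup1`, `cup2` (H-PAIR)

The pairings on cochains are defined in `F4/Pairing.lean`:
`cup2 (a, b) n = (a(·)(n), b(·)(n))`, `cup1 (a, b) y = ((g, h) ↦ a(g)(g y(h)), g ↦ b(y(g)))`.
Here we prove what the dévissage (DDT) consumes: the pairings send coboundaries to coboundaries,
they are bilinear, natural in `N`, and compatible with the connecting map of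
`0 → Hom(N'', K) → Hom(N, K) → Hom(N', K) → 0` (sign `+1`).
-/

set_option autoImplicit false

open CategoryTheory groupCohomology

namespace Fermat.Agent.F4

variable {k G : Type} [CommRing k] [Group G]

section

variable (𝓤 : Levels G) (K : Cx k G) (N : Rep.{0} k G)

/-- Evaluation of a total 1-cochain of `Hom(N, K)` at `n : N`. -/
def ev1 (c : T1 (homCx N K)) (n : N) : T1 K :=
  (fun g => (c.1 g : N →ₗ[k] K.K0) n, (c.2 : N →ₗ[k] K.K1) n)

@[simp] lemma ev1_fst (c : T1 (homCx N K)) (n : N) (g : G) :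
    (ev1 K N c n).1 g = (c.1 g : N →ₗ[k] K.K0) n := rfl

@[simp] lemma ev1_snd (c : T1 (homCx N K)) (n : N) :
    (ev1 K N c n).2 = (c.2 : N →ₗ[k] K.K1) n := rfl

@[simp] lemma cup1_fst (c : T1 (homCx N K)) (y : G → N) (p : G × G) :
    (cup1 N K c y).1 p = (c.1 p.1 : N →ₗ[k] K.K0) (N.ρ p.1 (y p.2)) := rfl

@[simp] lemma cup1_snd (c : T1 (homCx N K)) (y : G → N) (g : G) :
    (cup1 N K c y).2 g = (c.2 : N →ₗ[k] K.K1) (y g) := rfl

@[simp] lemma cup2_fst (z : T2 (homCx N K)) (n : N) (p : G × G) :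
    (cup2 N K z n).1 p = (z.1 p : N →ₗ[k] K.K0) n := rfl

@[simp] lemma cup2_snd (z : T2 (homCx N K)) (n : N) (g : G) :
    (cup2 N K z n).2 g = (z.2 g : N →ₗ[k] K.K1) n := rfl

/-- The first component of `D¹ c` for a cochain of `Hom(N, K)`, pointwise. -/
lemma D1_homCx_fst (c : T1 (homCx N K)) (g h : G) (m : N) :
    ((D1 (homCx N K) c).1 (g, h) : N →ₗ[k] K.K0) m =
      K.K0.ρ g ((c.1 h : N →ₗ[k] K.K0) (N.ρ g⁻¹ m)) - (c.1 (g * h) : N →ₗ[k] K.K0) m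
        + (c.1 g : N →ₗ[k] K.K0) m := rfl

/-- The second component of `D¹ c` for a cochain of `Hom(N, K)`, pointwise. -/
lemma D1_homCx_snd (c : T1 (homCx N K)) (g : G) (m : N) :
    ((D1 (homCx N K) c).2 g : N →ₗ[k] K.K1) m =
      K.d ((c.1 g : N →ₗ[k] K.K0) m)
        - (K.K1.ρ g ((c.2 : N →ₗ[k] K.K1) (N.ρ g⁻¹ m)) - (c.2 : N →ₗ[k] K.K1) m) := rfl

theorem cup2_D1 (c : T1 (homCx N K)) (n : N) (hn : ∀ g : G, N.ρ g n = n) :
    cup2 N K (D1 (homCx N K) c) n = D1 K (ev1 K N c n) := by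
  refine Prod.ext ?_ ?_
  · funext p
    obtain ⟨g, h⟩ := p
    rw [cup2_fst, D1_homCx_fst, hn g⁻¹]
    rfl
  · funext g
    rw [cup2_snd, D1_homCx_snd, hn g⁻¹]
    rfl

theorem cup2_mem_BB2 {z : T2 (homCx N K)} (hz : z ∈ BB2 𝓤 (homCx N K)) (n : N)
    (hn : ∀ g : G, N.ρ g n = n) : cup2 N K z n ∈ BB2 𝓤 K := by
  obtain ⟨c, hc, rfl⟩ := (mem_BB2_iff 𝓤 _ z).1 hz
  refine (mem_BB2_iff 𝓤 K _).2 ⟨ev1 K N c n, ?_, (cup2_D1 K N c n hn).symm⟩
  exact IsLC₁.comp hc (fun f : N →ₗ[k] K.K0 => f n)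

/-- The cocycle condition of a total 1-cocycle of `Hom(N, K)`, pointwise. -/
lemma ZZ1_homCx_cocycle {c : T1 (homCx N K)} (hc : c ∈ ZZ1 𝓤 (homCx N K)) (g h : G) (m : N) :
    (c.1 (g * h) : N →ₗ[k] K.K0) m =
      K.K0.ρ g ((c.1 h : N →ₗ[k] K.K0) (N.ρ g⁻¹ m)) + (c.1 g : N →ₗ[k] K.K0) m := by
  have h0 : D1 (homCx N K) c = 0 := hc.1
  have h1 := D1_homCx_fst K N c g h m
  rw [h0] at h1
  have h2 : K.K0.ρ g ((c.1 h : N →ₗ[k] K.K0) (N.ρ g⁻¹ m)) - (c.1 (g * h) : N →ₗ[k] K.K0) m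
        + (c.1 g : N →ₗ[k] K.K0) m = 0 := h1.symm
  have h3 : K.K0.ρ g ((c.1 h : N →ₗ[k] K.K0) (N.ρ g⁻¹ m)) + (c.1 g : N →ₗ[k] K.K0) m
      - (c.1 (g * h) : N →ₗ[k] K.K0) m = 0 := by
    rw [← h2]
    abel
  exact (sub_eq_zero.1 h3).symm

/-- The compatibility `d ∘ a = δ⁰ b` of a total 1-cocycle of `Hom(N, K)`, pointwise. -/
lemma ZZ1_homCx_d {c : T1 (homCx N K)} (hc : c ∈ ZZ1 𝓤 (homCx N K)) (g : G) (m : N) :
    K.d ((c.1 g : N →ₗ[k] K.K0) m) =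
      K.K1.ρ g ((c.2 : N →ₗ[k] K.K1) (N.ρ g⁻¹ m)) - (c.2 : N →ₗ[k] K.K1) m := by
  have h0 : D1 (homCx N K) c = 0 := hc.1
  have h1 := D1_homCx_snd K N c g m
  rw [h0] at h1
  exact (sub_eq_zero.1 h1.symm)

lemma Z1_cocycle' {y : G → N} (hy : y ∈ Z1 𝓤 N) (g h : G) :
    y (g * h) = N.ρ g (y h) + y g :=
  (mem_cocycles₁_iff y).1 hy.1 g h

/-- `(D⁰ x) ∪ y = D¹ (x ∘ y, 0)`. -/
theorem cup1_D0 (x : N →ₗ[k] K.K0) {y : G → N} (hy : y ∈ Z1 𝓤 N) :
    cup1 N K (D0 (homCx N K) x) y = D1 K ((fun g => x (y g)), 0) := by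
  refine Prod.ext ?_ ?_
  · funext p
    obtain ⟨g, h⟩ := p
    simp only [cup1_fst, D1_apply, δ1_apply]
    rw [Z1_cocycle' 𝓤 N hy g h]
    show K.K0.ρ g (x (N.ρ g⁻¹ (N.ρ g (y h)))) - x (N.ρ g (y h)) = _
    rw [← Module.End.mul_apply (N.ρ g⁻¹), ← map_mul, inv_mul_cancel, map_one,
      Module.End.one_apply, map_add]
    abel
  · funext g
    simp only [cup1_snd, D1_apply, Cx.dco_apply, map_zero, sub_zero]
    rfl

theorem cup1_D0_mem_BB2 (x : N →ₗ[k] K.K0) {y : G → N} (hy : y ∈ Z1 𝓤 N) :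
    cup1 N K (D0 (homCx N K) x) y ∈ BB2 𝓤 K := by
  refine (mem_BB2_iff 𝓤 K _).2 ⟨((fun g => x (y g)), 0), ?_, (cup1_D0 𝓤 K N x hy).symm⟩
  exact IsLC₁.comp hy.2 _

/-- `(a, b) ∪ δ⁰ n = D¹ (- a(g)(g n), - b(n))` for a cocycle `(a, b)`. -/
theorem cup1_δ0 {e : T1 (homCx N K)} (he : e ∈ ZZ1 𝓤 (homCx N K)) (n : N) :
    cup1 N K e (δ0 N n) =
      D1 K ((fun g => -(e.1 g : N →ₗ[k] K.K0) (N.ρ g n)), -((e.2 : N →ₗ[k] K.K1) n)) := by
  refine Prod.ext ?_ ?_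
  · funext p
    obtain ⟨g, h⟩ := p
    simp only [cup1_fst, D1_apply, δ1_apply, δ0_apply]
    rw [ZZ1_homCx_cocycle 𝓤 K N he g h]
    simp only [map_sub, map_neg, map_mul, Module.End.mul_apply]
    rw [← Module.End.mul_apply (N.ρ g⁻¹), ← map_mul, inv_mul_cancel, map_one,
      Module.End.one_apply]
    abel
  · funext g
    show (e.2 : N →ₗ[k] K.K1) (N.ρ g n - n) = K.d (-(e.1 g : N →ₗ[k] K.K0) (N.ρ g n))
      - (K.K1.ρ g (-((e.2 : N →ₗ[k] K.K1) n)) - (-((e.2 : N →ₗ[k] K.K1) n)))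
    rw [map_neg, ZZ1_homCx_d 𝓤 K N he, ← Module.End.mul_apply (N.ρ g⁻¹), ← map_mul,
      inv_mul_cancel, map_one, Module.End.one_apply, map_sub, map_neg]
    abel

/-- `g ↦ a(g)(g n)` is level-constant for level-constant `a` and `n` in a smooth module. -/
lemma isLC₁_twistEval (hN : IsSmooth 𝓤 N) {A : Rep.{0} k G} {a : G → (N →ₗ[k] A)}
    (ha : IsLC₁ 𝓤 a) (n : N) : IsLC₁ 𝓤 (fun g => a g (N.ρ g n)) := by
  obtain ⟨U, hU, hUinv⟩ := ha
  obtain ⟨W, hW, hfix⟩ := hN n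
  obtain ⟨V, hV, hle⟩ := 𝓤.directed U hU W hW
  refine ⟨V, hV, fun g s hs => ?_⟩
  show a (g * s) (N.ρ (g * s) n) = a g (N.ρ g n)
  rw [hUinv g s (hle hs).1, map_mul, Module.End.mul_apply, hfix s (hle hs).2]

theorem cup1_δ0_mem_BB2 (hN : IsSmooth 𝓤 N) [Module.Finite k N] {e : T1 (homCx N K)}
    (he : e ∈ ZZ1 𝓤 (homCx N K)) (n : N) : cup1 N K e (δ0 N n) ∈ BB2 𝓤 K := by
  refine (mem_BB2_iff 𝓤 K _).2 ⟨_, ?_, (cup1_δ0 𝓤 K N he n).symm⟩
  have h := isLC₁_twistEval 𝓤 N hN (A := K.K0) (a := fun g => (e.1 g : N →ₗ[k] K.K0))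
    (show IsLC₁ 𝓤 (fun g => (e.1 g : N →ₗ[k] K.K0)) from he.2.1) n
  exact h.comp (fun x => -x)

theorem cup1_add_left (e e' : T1 (homCx N K)) (y : G → N) :
    cup1 N K (e + e') y = cup1 N K e y + cup1 N K e' y := rfl

theorem cup1_smul_left (a : k) (e : T1 (homCx N K)) (y : G → N) :
    cup1 N K (a • e) y = a • cup1 N K e y := rfl

theorem cup1_add_right (e : T1 (homCx N K)) (y y' : G → N) :
    cup1 N K e (y + y') = cup1 N K e y + cup1 N K e y' := by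
  refine Prod.ext ?_ ?_
  · funext p
    simp
  · funext g
    simp

theorem cup1_smul_right (a : k) (e : T1 (homCx N K)) (y : G → N) :
    cup1 N K e (a • y) = a • cup1 N K e y := by
  refine Prod.ext ?_ ?_
  · funext p
    simp
  · funext g
    simp

theorem cup2_add_left (z z' : T2 (homCx N K)) (n : N) :
    cup2 N K (z + z') n = cup2 N K z n + cup2 N K z' n := rfl

theorem cup2_smul_left (a : k) (z : T2 (homCx N K)) (n : N) :
    cup2 N K (a • z) n = a • cup2 N K z n := rfl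

theorem cup2_add_right (z : T2 (homCx N K)) (n n' : N) :
    cup2 N K z (n + n') = cup2 N K z n + cup2 N K z n' := by
  refine Prod.ext ?_ ?_
  · funext p
    simp
  · funext g
    simp

theorem cup2_smul_right (a : k) (z : T2 (homCx N K)) (n : N) :
    cup2 N K z (a • n) = a • cup2 N K z n := by
  refine Prod.ext ?_ ?_
  · funext p
    simp
  · funext g
    simp

end

section Naturality

variable (K : Cx k G) {N N' : Rep.{0} k G} (φ : N →ₗ[k] N')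
  (hφ : ∀ (g : G) (n : N), φ (N.ρ g n) = N'.ρ g (φ n))

theorem cup2_homCxMap (z' : T2 (homCx N' K)) (n : N) :
    cup2 N K ((homCxMap φ hφ K).t2 z') n = cup2 N' K z' (φ n) := rfl

theorem cup1_homCxMap (e' : T1 (homCx N' K)) (y : G → N) :
    cup1 N K ((homCxMap φ hφ K).t1 e') y = cup1 N' K e' (fun g => φ (y g)) := by
  refine Prod.ext ?_ ?_
  · funext p
    show (e'.1 p.1 : N' →ₗ[k] K.K0) (φ (N.ρ p.1 (y p.2))) =
      (e'.1 p.1 : N' →ₗ[k] K.K0) (N'.ρ p.1 (φ (y p.2)))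
    rw [hφ]
  · rfl

end Naturality

section Connecting

variable (𝓤 : Levels G) (K : Cx k G) {N' N N'' : Rep.{0} k G}
  (i : N' →ₗ[k] N) (hi : ∀ (g : G) (n : N'), i (N'.ρ g n) = N.ρ g (i n))
  (q : N →ₗ[k] N'') (hq : ∀ (g : G) (n : N), q (N.ρ g n) = N''.ρ g (q n))

/-- Compatibility of the pairings with the connecting map (sign `+1`):
if `(e', z'')` are related by `Conn1Rel` (so `[z''] = ∂[e']`), and `i (y' g) = g n - n`
(so `[y'] = δ (q n)`), then `z'' ∪ q n - e' ∪ y'` is a coboundary. -/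
theorem cup2_conn1_sub_cup1_mem_BB2 (hK : K.Smooth 𝓤) (hN : IsSmooth 𝓤 N) [Module.Finite k N]
    {e' : T1 (homCx N' K)} {z'' : T2 (homCx N'' K)}
    (hrel : Conn1Rel 𝓤 (homCxMap q hq K) (homCxMap i hi K) e' z'')
    (he' : e' ∈ ZZ1 𝓤 (homCx N' K))
    (n : N) (y' : G → N') (hy' : ∀ g : G, i (y' g) = N.ρ g n - n) (hy'lc : IsLC₁ 𝓤 y') :
    cup2 N'' K z'' (q n) - cup1 N' K e' y' ∈ BB2 𝓤 K := by
  obtain ⟨c, hc, hgc, hfz⟩ := hrel
  -- pointwise forms of `q^* z'' = D¹ c` and `i^* c = e'`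
  have hz1 : ∀ (g h : G) (m : N), (z''.1 (g, h) : N'' →ₗ[k] K.K0) (q m) =
      K.K0.ρ g ((c.1 h : N →ₗ[k] K.K0) (N.ρ g⁻¹ m)) - (c.1 (g * h) : N →ₗ[k] K.K0) m
        + (c.1 g : N →ₗ[k] K.K0) m := fun g h m =>
    (LinearMap.congr_fun (congrFun (congrArg Prod.fst hfz) (g, h)) m).trans
      (D1_homCx_fst K N c g h m)
  have hz2 : ∀ (g : G) (m : N), (z''.2 g : N'' →ₗ[k] K.K1) (q m) =
      K.d ((c.1 g : N →ₗ[k] K.K0) m)
        - (K.K1.ρ g ((c.2 : N →ₗ[k] K.K1) (N.ρ g⁻¹ m)) - (c.2 : N →ₗ[k] K.K1) m) := fun g m =>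
    (LinearMap.congr_fun (congrFun (congrArg Prod.snd hfz) g) m).trans
      (D1_homCx_snd K N c g m)
  have hc1 : ∀ (g : G) (m : N'), (e'.1 g : N' →ₗ[k] K.K0) m = (c.1 g : N →ₗ[k] K.K0) (i m) :=
    fun g m => (LinearMap.congr_fun (congrFun (congrArg Prod.fst hgc) g) m).symm
  have hc2 : ∀ m : N', (e'.2 : N' →ₗ[k] K.K1) m = (c.2 : N →ₗ[k] K.K1) (i m) := fun m =>
    (LinearMap.congr_fun (congrArg Prod.snd hgc) m).symm
  -- the cocycle relations of `e'`, transported to `c` on the image of `i`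
  have hstar : ∀ (g h : G) (m : N'), (c.1 (g * h) : N →ₗ[k] K.K0) (i m) =
      K.K0.ρ g ((c.1 h : N →ₗ[k] K.K0) (N.ρ g⁻¹ (i m))) + (c.1 g : N →ₗ[k] K.K0) (i m) := by
    intro g h m
    have := ZZ1_homCx_cocycle 𝓤 K N' he' g h m
    rw [hc1, hc1, hc1, hi] at this
    exact this
  have hdd : ∀ (g : G) (m : N'), K.d ((c.1 g : N →ₗ[k] K.K0) (i m)) =
      K.K1.ρ g ((c.2 : N →ₗ[k] K.K1) (N.ρ g⁻¹ (i m))) - (c.2 : N →ₗ[k] K.K1) (i m) := by
    intro g m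
    have := ZZ1_homCx_d 𝓤 K N' he' g m
    rw [hc1, hc2, hc2, hi] at this
    exact this
  have hinv : ∀ (g : G) (x : N), N.ρ g⁻¹ (N.ρ g x) = x := fun g x => by
    rw [← Module.End.mul_apply, ← map_mul, inv_mul_cancel, map_one, Module.End.one_apply]
  refine (mem_BB2_iff 𝓤 K _).2
    ⟨((fun g => (c.1 g : N →ₗ[k] K.K0) (N.ρ g n)), (c.2 : N →ₗ[k] K.K1) n), ?_, ?_⟩
  · exact isLC₁_twistEval 𝓤 N hN (A := K.K0) (a := fun g => (c.1 g : N →ₗ[k] K.K0))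
      (show IsLC₁ 𝓤 (fun g => (c.1 g : N →ₗ[k] K.K0)) from hc.1) n
  · refine Prod.ext ?_ ?_
    · funext p
      obtain ⟨g, h⟩ := p
      show K.K0.ρ g ((c.1 h : N →ₗ[k] K.K0) (N.ρ h n))
          - (c.1 (g * h) : N →ₗ[k] K.K0) (N.ρ (g * h) n) + (c.1 g : N →ₗ[k] K.K0) (N.ρ g n) =
        (z''.1 (g, h) : N'' →ₗ[k] K.K0) (q n)
          - (e'.1 g : N' →ₗ[k] K.K0) (N'.ρ g (y' h))
      have key := hstar g h (y' (g * h))
      rw [hy'] at key
      rw [hz1, hc1, hi, hy']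
      simp only [map_sub, map_mul, Module.End.mul_apply, hinv] at key ⊢
      have e1 : ∀ a b c' d f u v : K.K0,
          a - b = u - v + (c' - d) → u - a + f = v - b + d - (c' - f) := by
        intro a b c' d f u v h1
        have : u - a + f - (v - b + d - (c' - f)) = -(a - b - (u - v + (c' - d))) := by abel
        rw [sub_eq_zero.2 h1, neg_zero] at this
        exact sub_eq_zero.1 this
      exact e1 _ _ _ _ _ _ _ key
    · funext g
      show K.d ((c.1 g : N →ₗ[k] K.K0) (N.ρ g n))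
          - (K.K1.ρ g ((c.2 : N →ₗ[k] K.K1) n) - (c.2 : N →ₗ[k] K.K1) n) =
        (z''.2 g : N'' →ₗ[k] K.K1) (q n) - (e'.2 : N' →ₗ[k] K.K1) (y' g)
      have key := hdd g (y' g)
      rw [hy'] at key
      rw [hz2, hc2, hy']
      simp only [map_sub, hinv] at key ⊢
      have e2 : ∀ a b c d e f : K.K1,
          a - b = c - d - (e - f) → a - (c - f) = b - (d - f) - (e - f) := by
        intro a b c d e f h1
        have : a - (c - f) - (b - (d - f) - (e - f)) = a - b - (c - d - (e - f)) := by abel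
        rw [sub_eq_zero.2 h1] at this
        exact sub_eq_zero.1 this
      exact e2 _ _ _ _ _ _ key

end Connecting

end Fermat.Agent.F4
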