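import Fermat.Agent.F4.Duality

/-!
# F4 / Devissage : the dévissage principle for finite smooth `𝔽_p[G]`-modules

A property `P` of `𝔽_p[G]`-modules which holds for the permutation modules `𝔽_p[G/U]` (`U` open) and
is closed under extensions and retracts holds for every finite smooth module (`devissage`).

Proof.  Let `V ∈ 𝓤` act trivially on `N`, `U` the preimage of a Sylow `p`-subgroup of `G ⧸ V`.
* `N` is a retract of `M = {f : G ⧸ U → N}`, `(h f)(x) = h f(h⁻¹ x)`  (index of `U` prime to `p`);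
* for a `U`-stable subspace `W` of `N` let `M_W = {f | g⁻¹ f(g U) ∈ W}`; a nonzero `U`-invariant linear
  form `λ` on `W` (fixed point of the `p`-group `U/V` on the dual of `W`) gives an exact sequence
  `0 → M_{W ∩ ker λ} → M_W → 𝔽_p[G/U] → 0`; induction on `dim W`.
-/

set_option autoImplicit false
set_option linter.style.haveILetI false
set_option linter.unusedSectionVars false

noncomputable section

open CategoryTheory

namespace Fermat.Agent.F4

section Twist

variable {k G : Type} [CommRing k] [Group G]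

/-- the twisted function representation on `G ⧸ U → N`: `(h f)(x) = h (f (h⁻¹ x))`. -/
def twRepr (U : Subgroup G) (N : Rep.{0} k G) : Representation k G ((G ⧸ U) → N) where
  toFun h :=
    { toFun := fun f x => N.ρ h (f (h⁻¹ • x))
      map_add' := fun f f' => by funext x; simp
      map_smul' := fun c f => by funext x; simp }
  map_one' := by
    refine LinearMap.ext fun f => funext fun x => ?_
    simp
  map_mul' := fun g h => by
    refine LinearMap.ext fun f => funext fun x => ?_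
    simp [mul_smul]

lemma twRepr_apply (U : Subgroup G) (N : Rep.{0} k G) (h : G) (f : (G ⧸ U) → N) (x : G ⧸ U) :
    twRepr U N h f x = N.ρ h (f (h⁻¹ • x)) := rfl

/-- the functions `f` with `g⁻¹ f(g U) ∈ W` for all `g`. -/
def twSub (U : Subgroup G) (N : Rep.{0} k G) (W : Submodule k N) :
    Submodule k ((G ⧸ U) → N) where
  carrier := {f | ∀ g : G, N.ρ g⁻¹ (f (g : G ⧸ U)) ∈ W}
  add_mem' := fun {f f'} hf hf' g => by
    simp only [Pi.add_apply, map_add]
    exact W.add_mem (hf g) (hf' g)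
  zero_mem' := fun g => by simp
  smul_mem' := fun c f hf g => by
    simp only [Pi.smul_apply, map_smul]
    exact W.smul_mem c (hf g)

lemma mem_twSub {U : Subgroup G} {N : Rep.{0} k G} {W : Submodule k N} {f : (G ⧸ U) → N} :
    f ∈ twSub U N W ↔ ∀ g : G, N.ρ g⁻¹ (f (g : G ⧸ U)) ∈ W := Iff.rfl

lemma twSub_mono (U : Subgroup G) (N : Rep.{0} k G) {W W' : Submodule k N} (h : W ≤ W') :
    twSub U N W ≤ twSub U N W' := fun _ hf g => h (hf g)

lemma twRepr_mem_twSub (U : Subgroup G) (N : Rep.{0} k G) (W : Submodule k N) (h : G)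
    {f : (G ⧸ U) → N} (hf : f ∈ twSub U N W) : twRepr U N h f ∈ twSub U N W := by
  intro g
  have := hf (h⁻¹ * g)
  rw [twRepr_apply, ← Module.End.mul_apply, ← map_mul]
  have e : (h⁻¹ • (g : G ⧸ U)) = ((h⁻¹ * g : G) : G ⧸ U) := rfl
  rw [e]
  have e2 : g⁻¹ * h = (h⁻¹ * g)⁻¹ := by group
  rw [e2]
  exact this

/-- the representation of `G` on `twSub U N W`. -/
def twSubRepr (U : Subgroup G) (N : Rep.{0} k G) (W : Submodule k N) :
    Representation k G (twSub U N W) where
  toFun h := (twRepr U N h).restrict fun _ hf => twRepr_mem_twSub U N W h hf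
  map_one' := by
    refine LinearMap.ext fun f => Subtype.ext ?_
    simp [LinearMap.restrict_apply]
  map_mul' := fun g h => by
    refine LinearMap.ext fun f => Subtype.ext ?_
    simp [LinearMap.restrict_apply]

/-- `M_W` as an object of `Rep`. -/
abbrev twSubRep (U : Subgroup G) (N : Rep.{0} k G) (W : Submodule k N) : Rep.{0} k G :=
  Rep.of (twSubRepr U N W)

lemma twSubRep_ρ_apply (U : Subgroup G) (N : Rep.{0} k G) (W : Submodule k N) (h : G)
    (f : twSub U N W) (x : G ⧸ U) :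
    (((twSubRep U N W).ρ h f : twSub U N W) : (G ⧸ U) → N) x = N.ρ h ((f : (G ⧸ U) → N) (h⁻¹ • x)) :=
  rfl

end Twist

section Exact

variable {k G : Type} [CommRing k] [Group G] (U : Subgroup G) (N : Rep.{0} k G)

/-- the map `f ↦ (x ↦ λ (g_x⁻¹ f(x)))`, `g_x` the chosen representative of `x`. -/
def twQ (lam : N →ₗ[k] k) : ((G ⧸ U) → N) →ₗ[k] ((G ⧸ U) → k) where
  toFun f x := lam (N.ρ (Quotient.out x)⁻¹ (f x))
  map_add' f f' := by funext x; simp
  map_smul' c f := by funext x; simp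

lemma twQ_apply (lam : N →ₗ[k] k) (f : (G ⧸ U) → N) (x : G ⧸ U) :
    twQ U N lam f x = lam (N.ρ (Quotient.out x)⁻¹ (f x)) := rfl

variable {U N} {W : Submodule k N} {lam : N →ₗ[k] k}

/-- independence of the representative. -/
lemma twQ_eq (hlam : ∀ u ∈ U, ∀ w ∈ W, lam (N.ρ u w) = lam w) {f : (G ⧸ U) → N}
    (hf : f ∈ twSub U N W) (g : G) :
    twQ U N lam f (g : G ⧸ U) = lam (N.ρ g⁻¹ (f (g : G ⧸ U))) := by
  rw [twQ_apply]
  set g' : G := Quotient.out (g : G ⧸ U) with hg'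
  have hmk : ((g' : G) : G ⧸ U) = (g : G ⧸ U) := QuotientGroup.out_eq' _
  have hu : g'⁻¹ * g ∈ U := QuotientGroup.eq.mp hmk
  have e : g'⁻¹ = (g'⁻¹ * g) * g⁻¹ := by group
  rw [e, map_mul, Module.End.mul_apply]
  exact hlam _ hu _ (hf g)

lemma twQ_equivariant (hlam : ∀ u ∈ U, ∀ w ∈ W, lam (N.ρ u w) = lam w) {f : (G ⧸ U) → N}
    (hf : f ∈ twSub U N W) (h : G) :
    twQ U N lam (twRepr U N h f) = (permRep k U).ρ h (twQ U N lam f) := by
  funext x
  rw [permRep_ρ_apply]
  induction x using QuotientGroup.induction_on with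
  | H g =>
    have e : (h⁻¹ • (g : G ⧸ U)) = ((h⁻¹ * g : G) : G ⧸ U) := rfl
    rw [twQ_eq hlam (twRepr_mem_twSub U N W h hf) g, e, twQ_eq hlam hf (h⁻¹ * g), twRepr_apply, e,
      ← Module.End.mul_apply, ← map_mul]
    congr 3
    group

lemma twQ_eq_zero_iff (hlam : ∀ u ∈ U, ∀ w ∈ W, lam (N.ρ u w) = lam w) {f : (G ⧸ U) → N}
    (hf : f ∈ twSub U N W) :
    twQ U N lam f = 0 ↔ f ∈ twSub U N (W ⊓ LinearMap.ker lam) := by
  constructor
  · intro h0 g
    refine ⟨hf g, ?_⟩
    rw [SetLike.mem_coe, LinearMap.mem_ker, ← twQ_eq hlam hf g, h0]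
    rfl
  · intro h1
    funext x
    induction x using QuotientGroup.induction_on with
    | H g =>
      rw [twQ_eq hlam hf g]
      exact (h1 g).2

lemma twQ_surjective (hW : ∀ u ∈ U, ∀ w ∈ W, N.ρ u w ∈ W) {w₀ : N} (hw₀ : w₀ ∈ W)
    (h1 : lam w₀ = 1) (φ : (G ⧸ U) → k) :
    ∃ f ∈ twSub U N W, twQ U N lam f = φ := by
  refine ⟨fun x => φ x • N.ρ (Quotient.out x) w₀, ?_, ?_⟩
  · intro g
    simp only [map_smul]
    refine W.smul_mem _ ?_
    rw [← Module.End.mul_apply, ← map_mul]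
    refine hW _ ?_ _ hw₀
    have hmk : ((Quotient.out (g : G ⧸ U) : G) : G ⧸ U) = (g : G ⧸ U) := QuotientGroup.out_eq' _
    exact QuotientGroup.eq.mp hmk.symm
  · funext x
    rw [twQ_apply]
    simp only [map_smul]
    rw [← Module.End.mul_apply, ← map_mul, inv_mul_cancel, map_one, Module.End.one_apply, h1,
      smul_eq_mul, mul_one]

end Exact

section SmoothFinite

variable {k G : Type} [Field k] [Group G] (𝓤 : Levels G) {U : Subgroup G} {N : Rep.{0} k G}

lemma twSubRep_smooth {V : Subgroup G} (hV : V ∈ 𝓤.sets) (hVU : V ≤ U)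
    (hVN : ∀ v ∈ V, ∀ n : N, N.ρ v n = n) (W : Submodule k N) :
    IsSmooth 𝓤 (twSubRep U N W) := by
  have hVn := 𝓤.normal V hV
  intro f
  refine ⟨V, hV, fun v hv => ?_⟩
  have hfix : ∀ x : G ⧸ U, v⁻¹ • x = x := by
    intro x
    induction x using QuotientGroup.induction_on with
    | H x =>
      show ((v⁻¹ * x : G) : G ⧸ U) = (x : G ⧸ U)
      rw [QuotientGroup.eq]
      have : x⁻¹ * v * x ∈ V := by
        have := hVn.conj_mem v hv x⁻¹
        simpa using this
      have h2 : (v⁻¹ * x)⁻¹ * x = x⁻¹ * v * x := by group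
      rw [h2]
      exact hVU this
  refine Subtype.ext (funext fun x => ?_)
  rw [twSubRep_ρ_apply, hVN v hv, hfix]

lemma twSubRep_finite [Finite (G ⧸ U)] [Module.Finite k N] (W : Submodule k N) :
    Module.Finite k (twSubRep U N W) := by
  show Module.Finite k (twSub U N W)
  infer_instance

lemma twSub_bot_eq (U : Subgroup G) (N : Rep.{0} k G) : twSub U N (⊥ : Submodule k N) = ⊥ := by
  rw [eq_bot_iff]
  intro f hf
  rw [Submodule.mem_bot]
  funext x
  induction x using QuotientGroup.induction_on with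
  | H g =>
    have h0 : N.ρ g⁻¹ (f (g : G ⧸ U)) = 0 := (Submodule.mem_bot k).mp (hf g)
    have := congrArg (N.ρ g) h0
    rwa [← Module.End.mul_apply, ← map_mul, mul_inv_cancel, map_one, Module.End.one_apply,
      map_zero] at this

end SmoothFinite

section Retract

variable {k G : Type} [Field k] [Group G] (U : Subgroup G) (N : Rep.{0} k G)

/-- the constant functions. -/
def twConst : N →ₗ[k] twSub U N (⊤ : Submodule k N) where
  toFun n := ⟨fun _ => n, fun _ => Submodule.mem_top⟩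
  map_add' _ _ := rfl
  map_smul' _ _ := rfl

lemma twConst_equivariant (g : G) (n : N) :
    twConst U N (N.ρ g n) = (twSubRep U N ⊤).ρ g (twConst U N n) := rfl

/-- the normalised sum of the values. -/
def twAvg [Fintype (G ⧸ U)] : twSub U N (⊤ : Submodule k N) →ₗ[k] N where
  toFun f := ((Fintype.card (G ⧸ U) : k))⁻¹ • ∑ x, (f : (G ⧸ U) → N) x
  map_add' f f' := by
    simp only [Submodule.coe_add, Pi.add_apply, Finset.sum_add_distrib, smul_add]
  map_smul' c f := by
    simp only [Submodule.coe_smul, Pi.smul_apply, RingHom.id_apply, ← Finset.smul_sum]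
    rw [smul_comm]

lemma twAvg_equivariant [Fintype (G ⧸ U)] (g : G) (f : twSub U N (⊤ : Submodule k N)) :
    twAvg U N ((twSubRep U N ⊤).ρ g f) = N.ρ g (twAvg U N f) := by
  show ((Fintype.card (G ⧸ U) : k))⁻¹ • ∑ x, N.ρ g ((f : (G ⧸ U) → N) (g⁻¹ • x))
    = N.ρ g (((Fintype.card (G ⧸ U) : k))⁻¹ • ∑ x, (f : (G ⧸ U) → N) x)
  rw [map_smul, map_sum]
  congr 1
  exact Equiv.sum_comp (MulAction.toPerm (g⁻¹ : G)) fun x => N.ρ g ((f : (G ⧸ U) → N) x)

lemma twAvg_twConst [Fintype (G ⧸ U)] (hidx : ((Fintype.card (G ⧸ U) : ℕ) : k) ≠ 0) (n : N) :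
    twAvg U N (twConst U N n) = n := by
  show ((Fintype.card (G ⧸ U) : k))⁻¹ • ∑ _x : G ⧸ U, n = n
  rw [Finset.sum_const, Finset.card_univ, ← Nat.cast_smul_eq_nsmul k, smul_smul,
    inv_mul_cancel₀ hidx, one_smul]

end Retract

section Induction

variable {p : ℕ} [Fact p.Prime] {G : Type} [Group G] (𝓤 : Levels G)
  (P : Rep.{0} (ZMod p) G → Prop)

/-- the zero module `M_0` has `P`. -/
lemma P_twSubRep_bot
    (hretr : ∀ (N M : Rep.{0} (ZMod p) G)
        (s : N →ₗ[ZMod p] M) (_ : ∀ g n, s (N.ρ g n) = M.ρ g (s n))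
        (r : M →ₗ[ZMod p] N) (_ : ∀ g m, r (M.ρ g m) = N.ρ g (r m)),
        (∀ n, r (s n) = n) → IsSmooth 𝓤 M → Module.Finite (ZMod p) M → P M → P N)
    {U : Subgroup G} (hU : 𝓤.IsOpen U) (hPU : P (permRep (ZMod p) U)) (N : Rep.{0} (ZMod p) G) :
    P (twSubRep U N ⊥) := by
  refine hretr (twSubRep U N ⊥) (permRep (ZMod p) U) 0 (fun g n => ?_) 0 (fun g m => ?_)
    (fun n => ?_) (permRep_smooth 𝓤 hU) (permRep_finite 𝓤 hU) hPU
  · simp
  · simp
  · obtain ⟨f, hf⟩ := n
    have hf' := hf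
    rw [twSub_bot_eq, Submodule.mem_bot] at hf'
    subst hf'
    rfl

/-- `M_W` has `P` for every `U`-stable subspace `W`. -/
theorem P_twSubRep
    (hext : ∀ (N' N N'' : Rep.{0} (ZMod p) G)
        (i : N' →ₗ[ZMod p] N) (_ : ∀ g n, i (N'.ρ g n) = N.ρ g (i n))
        (q : N →ₗ[ZMod p] N'') (_ : ∀ g n, q (N.ρ g n) = N''.ρ g (q n)),
        Function.Injective i → Function.Surjective q → (∀ n, q n = 0 ↔ ∃ n', i n' = n) →
        IsSmooth 𝓤 N → Module.Finite (ZMod p) N → P N' → P N'' → P N)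
    (hretr : ∀ (N M : Rep.{0} (ZMod p) G)
        (s : N →ₗ[ZMod p] M) (_ : ∀ g n, s (N.ρ g n) = M.ρ g (s n))
        (r : M →ₗ[ZMod p] N) (_ : ∀ g m, r (M.ρ g m) = N.ρ g (r m)),
        (∀ n, r (s n) = n) → IsSmooth 𝓤 M → Module.Finite (ZMod p) M → P M → P N)
    {U V : Subgroup G} (hV : V ∈ 𝓤.sets) (hVU : V ≤ U) (hPU : P (permRep (ZMod p) U))
    (N : Rep.{0} (ZMod p) G) [Module.Finite (ZMod p) N]
    (hVN : ∀ v ∈ V, ∀ n : N, N.ρ v n = n)
    (hform : ∀ W : Submodule (ZMod p) N, (∀ u ∈ U, ∀ w ∈ W, N.ρ u w ∈ W) → W ≠ ⊥ →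
      ∃ lam : N →ₗ[ZMod p] ZMod p, (∀ u ∈ U, ∀ w ∈ W, lam (N.ρ u w) = lam w) ∧
        ∃ w ∈ W, lam w = 1) :
    ∀ (n : ℕ) (W : Submodule (ZMod p) N), (∀ u ∈ U, ∀ w ∈ W, N.ρ u w ∈ W) →
      Module.finrank (ZMod p) W = n → P (twSubRep U N W) := by
  have hU : 𝓤.IsOpen U := ⟨V, hV, hVU⟩
  have := 𝓤.finiteIndex V hV
  have hfi : U.FiniteIndex := Subgroup.finiteIndex_of_le hVU
  have : Finite (G ⧸ U) := Subgroup.finite_quotient_of_finiteIndex
  intro n
  induction n using Nat.strong_induction_on with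
  | _ n ih =>
    intro W hW hn
    by_cases hbot : W = ⊥
    · rw [hbot]
      exact P_twSubRep_bot 𝓤 P hretr hU hPU N
    obtain ⟨lam, hlam, w₀, hw₀, h1⟩ := hform W hW hbot
    have hW' : ∀ u ∈ U, ∀ w ∈ W ⊓ LinearMap.ker lam, N.ρ u w ∈ W ⊓ LinearMap.ker lam := by
      intro u hu w hw
      refine ⟨hW u hu w hw.1, ?_⟩
      rw [SetLike.mem_coe, LinearMap.mem_ker, hlam u hu w hw.1]
      exact hw.2
    have hlt : W ⊓ LinearMap.ker lam < W := by
      refine lt_of_le_of_ne inf_le_left fun heq => ?_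
      have : w₀ ∈ W ⊓ LinearMap.ker lam := by
        rw [heq]
        exact hw₀
      have h0 : lam w₀ = 0 := this.2
      rw [h1] at h0
      exact one_ne_zero h0
    have hrank : Module.finrank (ZMod p) ↥(W ⊓ LinearMap.ker lam) < n := by
      rw [← hn]
      exact Submodule.finrank_lt_finrank_of_lt hlt
    have hP' := ih _ hrank (W ⊓ LinearMap.ker lam) hW' rfl
    refine hext (twSubRep U N (W ⊓ LinearMap.ker lam)) (twSubRep U N W) (permRep (ZMod p) U)
      (Submodule.inclusion (twSub_mono U N inf_le_left)) (fun g f => rfl)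
      ((twQ U N lam).comp (twSub U N W).subtype) (fun g f => ?_)
      (Submodule.inclusion_injective _) (fun φ => ?_) (fun f => ?_)
      (twSubRep_smooth 𝓤 hV hVU hVN W) (twSubRep_finite W) hP' hPU
    · exact twQ_equivariant hlam f.2 g
    · obtain ⟨f, hf, hfφ⟩ := twQ_surjective hW hw₀ h1 φ
      exact ⟨⟨f, hf⟩, hfφ⟩
    · constructor
      · intro h0
        have := (twQ_eq_zero_iff hlam f.2).mp h0
        exact ⟨⟨f.1, this⟩, rfl⟩
      · rintro ⟨f', rfl⟩
        exact (twQ_eq_zero_iff hlam (twSub_mono U N inf_le_left f'.2)).mpr f'.2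

end Induction

section Sylow

variable {p : ℕ} [Fact p.Prime]

/-- a finite `p`-group acting linearly on a nonzero finite `𝔽_p`-vector space fixes a nonzero
linear form. -/
theorem exists_invariant_form {Q : Type} [Group Q] (hQ : IsPGroup p Q) {W : Type}
    [AddCommGroup W] [Module (ZMod p) W] [Module.Finite (ZMod p) W] [Nontrivial W]
    (σ : Representation (ZMod p) Q W) :
    ∃ f : W →ₗ[ZMod p] ZMod p, f ≠ 0 ∧ ∀ (γ : Q) (w : W), f (σ γ w) = f w := by
  letI : MulAction Q (Module.Dual (ZMod p) W) :=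
    { smul := fun γ f => Representation.dual σ γ f
      one_smul := fun f => by
        show Representation.dual σ 1 f = f
        rw [map_one]
        rfl
      mul_smul := fun a b f => by
        show Representation.dual σ (a * b) f = Representation.dual σ a (Representation.dual σ b f)
        rw [map_mul]
        rfl }
  have hsmul : ∀ (γ : Q) (f : Module.Dual (ZMod p) W), γ • f = f ∘ₗ σ γ⁻¹ := fun _ _ => rfl
  haveI : Finite W := Module.finite_of_finite (ZMod p)
  haveI : Finite (Module.Dual (ZMod p) W) := Module.finite_of_finite (ZMod p)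
  have hcard : p ∣ Nat.card (Module.Dual (ZMod p) W) := by
    rw [Module.natCard_eq_pow_finrank (K := ZMod p), Subspace.dual_finrank_eq, Nat.card_zmod]
    exact dvd_pow_self p (Module.finrank_pos (R := ZMod p) (M := W)).ne'
  have h0 : (0 : Module.Dual (ZMod p) W) ∈ MulAction.fixedPoints Q (Module.Dual (ZMod p) W) := by
    intro γ
    rw [hsmul]
    exact LinearMap.zero_comp _
  obtain ⟨f, hf, hne⟩ := hQ.exists_fixed_point_of_prime_dvd_card_of_fixed_point
    (Module.Dual (ZMod p) W) hcard h0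
  refine ⟨f, fun h => hne h.symm, fun γ w => ?_⟩
  have := hf γ⁻¹
  rw [hsmul, inv_inv] at this
  exact LinearMap.congr_fun this w

variable {G : Type} [Group G] (𝓤 : Levels G)

/-- the open subgroup `U` used in the dévissage: preimage of a Sylow `p`-subgroup of `G ⧸ V`. -/
theorem exists_sylow_level (N : Rep.{0} (ZMod p) G) (hN : IsSmooth 𝓤 N)
    [Module.Finite (ZMod p) N] :
    ∃ U V : Subgroup G, V ∈ 𝓤.sets ∧ V ≤ U ∧ (∀ v ∈ V, ∀ n : N, N.ρ v n = n) ∧
      ((U.index : ℕ) : ZMod p) ≠ 0 ∧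
      ∀ W : Submodule (ZMod p) N, (∀ u ∈ U, ∀ w ∈ W, N.ρ u w ∈ W) → W ≠ ⊥ →
        ∃ lam : N →ₗ[ZMod p] ZMod p, (∀ u ∈ U, ∀ w ∈ W, lam (N.ρ u w) = lam w) ∧
          ∃ w ∈ W, lam w = 1 := by
  obtain ⟨V, hV, hVN⟩ := exists_level_fixing 𝓤 N hN
  haveI hVn : V.Normal := 𝓤.normal V hV
  haveI hVfi : V.FiniteIndex := 𝓤.finiteIndex V hV
  haveI : Finite (G ⧸ V) := Subgroup.finite_quotient_of_finiteIndex
  obtain ⟨P₀⟩ : Nonempty (Sylow p (G ⧸ V)) := inferInstance
  set U : Subgroup G := (P₀ : Subgroup (G ⧸ V)).comap (QuotientGroup.mk' V) with hUdef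
  have hVU : V ≤ U := by
    intro v hv
    show QuotientGroup.mk' V v ∈ (P₀ : Subgroup (G ⧸ V))
    rw [QuotientGroup.mk'_apply, (QuotientGroup.eq_one_iff v).mpr hv]
    exact one_mem _
  have hidx : ((U.index : ℕ) : ZMod p) ≠ 0 := by
    rw [hUdef, Subgroup.index_comap_of_surjective _ (QuotientGroup.mk'_surjective V), Ne,
      ZMod.natCast_eq_zero_iff]
    exact P₀.not_dvd_index
  refine ⟨U, V, hV, hVU, hVN, hidx, fun W hW hbot => ?_⟩
  -- the representation of `G ⧸ V` on `N`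
  let ρbar : (G ⧸ V) →* (N →ₗ[ZMod p] N) :=
    QuotientGroup.lift V N.ρ fun v hv => LinearMap.ext fun n => hVN v hv n
  have hρbar : ∀ g : G, ρbar (g : G ⧸ V) = N.ρ g := fun g => rfl
  have hstab : ∀ γ : (P₀ : Subgroup (G ⧸ V)), ∀ w ∈ W, ρbar (γ : G ⧸ V) w ∈ W := by
    rintro ⟨γ, hγ⟩ w hw
    induction γ using QuotientGroup.induction_on with
    | H g => exact hW g hγ w hw
  let σ : Representation (ZMod p) (P₀ : Subgroup (G ⧸ V)) W :=
    { toFun := fun γ => (ρbar (γ : G ⧸ V)).restrict (hstab γ)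
      map_one' := by
        refine LinearMap.ext fun w => Subtype.ext ?_
        simp [LinearMap.restrict_apply]
      map_mul' := fun a b => by
        refine LinearMap.ext fun w => Subtype.ext ?_
        simp [LinearMap.restrict_apply] }
  haveI : Nontrivial W := Submodule.nontrivial_iff_ne_bot.mpr hbot
  obtain ⟨f, hf0, hfinv⟩ := exists_invariant_form P₀.isPGroup' σ
  obtain ⟨w, hw⟩ : ∃ w : W, f w ≠ 0 := by
    by_contra hcon
    push Not at hcon
    exact hf0 (LinearMap.ext hcon)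
  obtain ⟨lam₀, hlam₀⟩ := LinearMap.exists_extend f
  have hlam₀' : ∀ w' : W, lam₀ (w' : N) = f w' := fun w' => LinearMap.congr_fun hlam₀ w'
  refine ⟨(f w)⁻¹ • lam₀, fun u hu w' hw' => ?_, (w : N), w.2, ?_⟩
  · have h1 := hfinv ⟨(u : G ⧸ V), hu⟩ ⟨w', hw'⟩
    have h2 : ((σ ⟨(u : G ⧸ V), hu⟩ ⟨w', hw'⟩ : W) : N) = N.ρ u w' := rfl
    simp only [LinearMap.smul_apply]
    rw [← h2, hlam₀', h1, ← hlam₀' ⟨w', hw'⟩]
  · simp only [LinearMap.smul_apply, smul_eq_mul]
    rw [hlam₀', inv_mul_cancel₀ hw]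

end Sylow

section Main

variable {p : ℕ} [Fact p.Prime] {G : Type} [Group G]

/-- **Dévissage principle, prime-to-`p` base case.**  A property of `𝔽_p[G]`-modules which holds
for the permutation modules `𝔽_p[G/U]`, `U` open of index prime to `p`, and is closed under
extensions and retracts holds for every finite smooth `𝔽_p[G]`-module. -/
theorem devissage_primeTo (𝓤 : Levels G) (P : Rep.{0} (ZMod p) G → Prop)
    (hperm : ∀ U : Subgroup G, 𝓤.IsOpen U → ¬ p ∣ U.index → P (permRep (ZMod p) U))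
    (hext : ∀ (N' N N'' : Rep.{0} (ZMod p) G)
        (i : N' →ₗ[ZMod p] N) (_ : ∀ g n, i (N'.ρ g n) = N.ρ g (i n))
        (q : N →ₗ[ZMod p] N'') (_ : ∀ g n, q (N.ρ g n) = N''.ρ g (q n)),
        Function.Injective i → Function.Surjective q → (∀ n, q n = 0 ↔ ∃ n', i n' = n) →
        IsSmooth 𝓤 N → Module.Finite (ZMod p) N → P N' → P N'' → P N)
    (hretr : ∀ (N M : Rep.{0} (ZMod p) G)
        (s : N →ₗ[ZMod p] M) (_ : ∀ g n, s (N.ρ g n) = M.ρ g (s n))
        (r : M →ₗ[ZMod p] N) (_ : ∀ g m, r (M.ρ g m) = N.ρ g (r m)),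
        (∀ n, r (s n) = n) → IsSmooth 𝓤 M → Module.Finite (ZMod p) M → P M → P N)
    (N : Rep.{0} (ZMod p) G) (hN : IsSmooth 𝓤 N) (hfin : Module.Finite (ZMod p) N) : P N := by
  obtain ⟨U, V, hV, hVU, hVN, hidx, hform⟩ := exists_sylow_level 𝓤 N hN
  have := 𝓤.finiteIndex V hV
  have hfi : U.FiniteIndex := Subgroup.finiteIndex_of_le hVU
  have : Finite (G ⧸ U) := Subgroup.finite_quotient_of_finiteIndex
  letI : Fintype (G ⧸ U) := Fintype.ofFinite _
  have hpU : ¬ p ∣ U.index := fun h => hidx ((ZMod.natCast_eq_zero_iff _ _).mpr h)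
  have hPU : P (permRep (ZMod p) U) := hperm U ⟨V, hV, hVU⟩ hpU
  have hPM : P (twSubRep U N ⊤) :=
    P_twSubRep 𝓤 P hext hretr hV hVU hPU N hVN hform _ ⊤ (fun _ _ _ _ => Submodule.mem_top) rfl
  have hcard : ((Fintype.card (G ⧸ U) : ℕ) : ZMod p) ≠ 0 := by
    rwa [← Nat.card_eq_fintype_card, ← Subgroup.index_eq_card]
  exact hretr N (twSubRep U N ⊤) (twConst U N) (twConst_equivariant U N) (twAvg U N)
    (twAvg_equivariant U N) (twAvg_twConst U N hcard) (twSubRep_smooth 𝓤 hV hVU hVN ⊤)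
    (twSubRep_finite ⊤) hPM

/-- **Dévissage principle.**  A property of `𝔽_p[G]`-modules which holds for the permutation
modules `𝔽_p[G/U]`, `U` open, and is closed under extensions and retracts holds for every finite
smooth `𝔽_p[G]`-module. -/
theorem devissage (𝓤 : Levels G) (P : Rep.{0} (ZMod p) G → Prop)
    (hperm : ∀ U : Subgroup G, 𝓤.IsOpen U → P (permRep (ZMod p) U))
    (hext : ∀ (N' N N'' : Rep.{0} (ZMod p) G)
        (i : N' →ₗ[ZMod p] N) (_ : ∀ g n, i (N'.ρ g n) = N.ρ g (i n))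
        (q : N →ₗ[ZMod p] N'') (_ : ∀ g n, q (N.ρ g n) = N''.ρ g (q n)),
        Function.Injective i → Function.Surjective q → (∀ n, q n = 0 ↔ ∃ n', i n' = n) →
        IsSmooth 𝓤 N → Module.Finite (ZMod p) N → P N' → P N'' → P N)
    (hretr : ∀ (N M : Rep.{0} (ZMod p) G)
        (s : N →ₗ[ZMod p] M) (_ : ∀ g n, s (N.ρ g n) = M.ρ g (s n))
        (r : M →ₗ[ZMod p] N) (_ : ∀ g m, r (M.ρ g m) = N.ρ g (r m)),
        (∀ n, r (s n) = n) → IsSmooth 𝓤 M → Module.Finite (ZMod p) M → P M → P N)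
    (N : Rep.{0} (ZMod p) G) (hN : IsSmooth 𝓤 N) (hfin : Module.Finite (ZMod p) N) : P N :=
  devissage_primeTo 𝓤 P (fun U hU _ => hperm U hU) hext hretr N hN hfin

end Main

end Fermat.Agent.F4
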