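import Mathlib
import Fermat.Prelude.Def_GroupCohomology_ContinuousUnramified

/-!
# F4 / Final : from a Poitou–Tate segment to the statement of S55

`PTSegment S M M'` packages the part of the Poitou–Tate sequence needed for the duality
`Ш¹(M') ≅ Ш²(M)^*` as plain linear algebra over `ZMod p`:

    P1 --β--> X --δ--> H²(G_S, M) --loc--> ⊕_v H²(Q_v, M)
              | α (iso)
              v
         H¹(G_S, M')^*  <--λ'^*-- P1'^*  <<--ι-- P1

(think `X = Ext¹_{G_S}(M', C_S)`, `P1 = Ext¹_{G_S}(M', J_S)`, `P1' = ⊕_v H¹(D_v, M')`).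
`exists_pairing_of_PTSegment` is the final step of S55 (pure linear algebra, sorry-free).
-/

set_option autoImplicit false

open CategoryTheory Module groupCohomology ExtCitation

namespace Fermat.Agent.F4

section LinearAlgebra

variable {K : Type*} [Field K]

/-- Two finite-dimensional spaces of the same dimension admit a pairing that is non-degenerate
on both sides. -/
theorem exists_perfect_pairing_of_finrank_eq {V W : Type*} [AddCommGroup V] [Module K V]
    [AddCommGroup W] [Module K W] [FiniteDimensional K V] [FiniteDimensional K W]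
    (h : finrank K V = finrank K W) :
    ∃ B : V →ₗ[K] W →ₗ[K] K,
      (∀ y, (∀ x, B y x = 0) → y = 0) ∧ (∀ x, (∀ y, B y x = 0) → x = 0) := by
  classical
  -- `e : V ≃ Dual W`
  have h' : finrank K V = finrank K (Dual K W) := by rw [h, Subspace.dual_finrank_eq]
  let e : V ≃ₗ[K] Dual K W := LinearEquiv.ofFinrankEq V (Dual K W) h'
  refine ⟨e.toLinearMap, ?_, ?_⟩
  · intro y hy
    have : e y = 0 := LinearMap.ext fun x => by simpa using hy x
    exact e.map_eq_zero_iff.1 this
  · intro x hx
    by_contra hne
    obtain ⟨f, hf⟩ : ∃ f : Dual K W, f x ≠ 0 := by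
      by_contra hcon
      have hcon' : ∀ f : Dual K W, f x = 0 := by
        intro f
        by_contra hfx
        exact hcon ⟨f, hfx⟩
      exact hne ((Module.forall_dual_apply_eq_zero_iff K x).1 hcon')
    apply hf
    have := hx (e.symm f)
    simpa using this

end LinearAlgebra

variable {p : ℕ} [Fact p.Prime]

/-- The segment of the Poitou–Tate sequence used for `Ш¹(M') ≅ Ш²(M)^*`, as linear algebra.
`M'` is any representation playing the role of `Hom(M, μ_p)`. -/
structure PTSegment (S : Finset Nat.Primes)
    (M M' : Rep (ZMod p) (AlgebraicClosure ℚ ≃ₐ[ℚ] AlgebraicClosure ℚ)) where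
  /-- `Ext¹(M', C_S)` -/
  X : Type
  /-- `Ext¹(M', J_S)` (local term) -/
  P1 : Type
  /-- a space receiving the localisation of `H¹(G_S, M')`, e.g. `⊕_v H¹(D_v, M')` -/
  P1' : Type
  [instX : AddCommGroup X] [modX : Module (ZMod p) X]
  [instP1 : AddCommGroup P1] [modP1 : Module (ZMod p) P1]
  [instP1' : AddCommGroup P1'] [modP1' : Module (ZMod p) P1']
  β : P1 →ₗ[ZMod p] X
  δ : X →ₗ[ZMod p] continuousH2S S M
  α : X →ₗ[ZMod p] Dual (ZMod p) ↥(continuousH1S S M')
  loc' : ↥(continuousH1S S M') →ₗ[ZMod p] P1'
  ι : P1 →ₗ[ZMod p] Dual (ZMod p) P1'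
  /-- `H¹(G_S, M')` is finite (Hermite–Minkowski) -/
  finite_H1 : FiniteDimensional (ZMod p) ↥(continuousH1S S M')
  /-- exactness at `X` -/
  exact_X : LinearMap.range β = LinearMap.ker δ
  /-- exactness at `H²(G_S, M)`: the image of `δ` is `Ш²` -/
  exact_H2 : LinearMap.range δ = sha₂ S M
  /-- Tate's theorem -/
  α_bijective : Function.Bijective α
  /-- the kernel of the localisation is `Ш¹` -/
  ker_loc' : LinearMap.ker loc' = (sha₁ S M').comap (continuousH1S S M').subtype
  /-- local duality (surjectivity suffices) -/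
  ι_surjective : Function.Surjective ι
  /-- compatibility of the global and the local pairings -/
  compat : α ∘ₗ β = loc'.dualMap ∘ₗ ι

attribute [instance] PTSegment.instX PTSegment.modX PTSegment.instP1 PTSegment.modP1
  PTSegment.instP1' PTSegment.modP1'

namespace PTSegment

variable {S : Finset Nat.Primes}
  {M M' : Rep (ZMod p) (AlgebraicClosure ℚ ≃ₐ[ℚ] AlgebraicClosure ℚ)} (D : PTSegment S M M')

include D

theorem finite_sha₁ : FiniteDimensional (ZMod p) ↥(sha₁ S M') := by
  have := D.finite_H1
  have hle : sha₁ S M' ≤ continuousH1S S M' := inf_le_left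
  exact FiniteDimensional.of_injective (Submodule.inclusion hle)
    (Submodule.inclusion_injective hle)

theorem finite_X : FiniteDimensional (ZMod p) D.X := by
  have := D.finite_H1
  exact FiniteDimensional.of_injective D.α D.α_bijective.1

theorem finite_sha₂ : FiniteDimensional (ZMod p) ↥(sha₂ S M) := by
  have := D.finite_X
  rw [← D.exact_H2]
  infer_instance

theorem finrank_sha₁_eq_finrank_sha₂ :
    finrank (ZMod p) ↥(sha₁ S M') = finrank (ZMod p) ↥(sha₂ S M) := by
  have := D.finite_H1
  have := D.finite_X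
  -- dim X = dim H¹
  have hX : finrank (ZMod p) D.X = finrank (ZMod p) ↥(continuousH1S S M') := by
    rw [(LinearEquiv.ofBijective D.α D.α_bijective).finrank_eq, Subspace.dual_finrank_eq]
  -- dim sha₂ = dim range δ = dim X - dim ker δ
  have h2 : finrank (ZMod p) ↥(sha₂ S M) + finrank (ZMod p) ↥(LinearMap.ker D.δ)
      = finrank (ZMod p) D.X := by
    rw [← D.exact_H2]
    exact LinearMap.finrank_range_add_finrank_ker D.δ
  -- dim ker δ = dim range β = dim range (α ∘ β) = dim range (loc'^* ∘ ι) = dim range loc'^* = rank loc'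
  have h3 : finrank (ZMod p) ↥(LinearMap.ker D.δ)
      = finrank (ZMod p) ↥(LinearMap.range D.loc') := by
    rw [← D.exact_X]
    have hαβ : finrank (ZMod p) ↥(LinearMap.range D.β)
        = finrank (ZMod p) ↥(LinearMap.range (D.α ∘ₗ D.β)) := by
      rw [LinearMap.range_comp]
      exact (LinearEquiv.finrank_eq
        (Submodule.equivMapOfInjective D.α D.α_bijective.1 (LinearMap.range D.β)))
    rw [hαβ, D.compat, LinearMap.range_comp,
      LinearMap.range_eq_top.2 D.ι_surjective, Submodule.map_top]
    exact LinearMap.finrank_range_dualMap_eq_finrank_range D.loc'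
  -- rank loc' = dim H¹ - dim ker loc' = dim H¹ - dim sha₁
  have h4 : finrank (ZMod p) ↥(LinearMap.range D.loc') + finrank (ZMod p) ↥(LinearMap.ker D.loc')
      = finrank (ZMod p) ↥(continuousH1S S M') :=
    LinearMap.finrank_range_add_finrank_ker D.loc'
  have h5 : finrank (ZMod p) ↥(LinearMap.ker D.loc') = finrank (ZMod p) ↥(sha₁ S M') := by
    rw [D.ker_loc']
    have hle : sha₁ S M' ≤ continuousH1S S M' := inf_le_left
    exact (Submodule.comapSubtypeEquivOfLe hle).finrank_eq
  omega

/-- The final step of S55: a Poitou–Tate segment gives a pairing `Ш¹(M') × Ш²(M) → F_p`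
which is non-degenerate on both sides. -/
theorem exists_pairing :
    ∃ B : sha₁ S M' →ₗ[ZMod p] sha₂ S M →ₗ[ZMod p] ZMod p,
      (∀ y, (∀ x, B y x = 0) → y = 0) ∧ (∀ x, (∀ y, B y x = 0) → x = 0) := by
  have := D.finite_sha₁
  have := D.finite_sha₂
  exact exists_perfect_pairing_of_finrank_eq D.finrank_sha₁_eq_finrank_sha₂

end PTSegment

end Fermat.Agent.F4
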