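import Fermat.Agent.F4.DDT.Main

/-!
# F4 / DDT : the dévissage duality theorem (PROVED: see `F4/DDT/Main.lean`, which also has the
stronger forms `ddt_primeTo`, `ddt_inj_levels`, `finite_H1sm_primeTo`)

`k = 𝔽_p`, `K` a smooth 2-term complex with a linear form `inv` on `HH²(K)`.
If `α²` is injective and `α¹` is surjective for all permutation modules `𝔽_p[G/U]`, `U` open, then
the same holds for every finite smooth `𝔽_p[G]`-module `N`; if moreover `α¹` is injective for all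
permutation modules, it is injective for every `N`.

Proof (four-lemma on the contravariant sequence of `HH^r(Hom(-, K))` against the dual of the
cohomology sequence of `H^0, H^1`):
* the class `𝒞 = {N | α²_N injective, α¹_N surjective}` is closed under extensions and retracts;
* `N` is a retract of `𝔽_p[G/U] ⊗ N` for `U` = preimage of a Sylow `p`-subgroup of the image of
  `G` in `GL(N)`; `N|_U` has a filtration with trivial graded pieces, hence `𝔽_p[G/U] ⊗ N` has one
  with graded pieces `𝔽_p[G/U]`;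
* `α¹` injective: embed `N ↪ 𝔽_p[G/U']^n` (`U'` acting trivially on `N`), four-lemma again.
-/

set_option autoImplicit false

namespace Fermat.Agent.F4

variable {p : ℕ} [Fact p.Prime] {G : Type} [Group G]

/-- **Dévissage duality theorem**, injectivity of `α²` and surjectivity of `α¹`. -/
theorem ddt (𝓤 : Levels G) (K : Cx (ZMod p) G) (hK : K.Smooth 𝓤)
    (inv : HH2 𝓤 K →ₗ[ZMod p] ZMod p)
    (h2 : ∀ (U : Subgroup G), 𝓤.IsOpen U → A2Inj 𝓤 K (permRep (ZMod p) U) inv)
    (h1 : ∀ (U : Subgroup G) (hU : 𝓤.IsOpen U),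
      A1Surj 𝓤 K (permRep (ZMod p) U) inv (permRep_smooth 𝓤 hU) (permRep_finite 𝓤 hU))
    (N : Rep.{0} (ZMod p) G) (hN : IsSmooth 𝓤 N) (hfin : Module.Finite (ZMod p) N) :
    A2Inj 𝓤 K N inv ∧ A1Surj 𝓤 K N inv hN hfin :=
  ddt_main 𝓤 K hK inv h2 h1 N hN hfin

/-- **Dévissage duality theorem**, injectivity of `α¹`. -/
theorem ddt_inj (𝓤 : Levels G) (K : Cx (ZMod p) G) (hK : K.Smooth 𝓤)
    (inv : HH2 𝓤 K →ₗ[ZMod p] ZMod p)
    (h2 : ∀ (U : Subgroup G), 𝓤.IsOpen U → A2Inj 𝓤 K (permRep (ZMod p) U) inv)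
    (h1 : ∀ (U : Subgroup G) (hU : 𝓤.IsOpen U),
      A1Surj 𝓤 K (permRep (ZMod p) U) inv (permRep_smooth 𝓤 hU) (permRep_finite 𝓤 hU))
    (h1i : ∀ (U : Subgroup G) (hU : 𝓤.IsOpen U),
      A1Inj 𝓤 K (permRep (ZMod p) U) inv (permRep_smooth 𝓤 hU) (permRep_finite 𝓤 hU))
    (N : Rep.{0} (ZMod p) G) (hN : IsSmooth 𝓤 N) (hfin : Module.Finite (ZMod p) N) :
    A1Inj 𝓤 K N inv hN hfin :=
  ddt_inj_main 𝓤 K hK inv h2 h1 h1i N hN hfin

/-- Finiteness of smooth `H¹` by dévissage from permutation modules. -/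
theorem finite_H1sm_of_perm (𝓤 : Levels G)
    (h : ∀ (U : Subgroup G), 𝓤.IsOpen U → Module.Finite (ZMod p) (H1sm 𝓤 (permRep (ZMod p) U)))
    (N : Rep.{0} (ZMod p) G) (hN : IsSmooth 𝓤 N) (hfin : Module.Finite (ZMod p) N) :
    Module.Finite (ZMod p) (H1sm 𝓤 N) :=
  finite_H1sm_of_perm_main 𝓤 h N hN hfin

end Fermat.Agent.F4
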