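import Fermat.Agent.F4.Devissage

/-!
# F4 / DevissageSub : the dévissage principle by embedding into permutation modules

A property `P` of `𝔽_p[G]`-modules (in fact of `k[G]`-modules, `k` any field) which holds for the
permutation modules `k[G/U]` (`U` open), is closed under split extensions (direct sums) and passes
to submodules (`0 → N → M → N'' → 0` exact, `P M` ⟹ `P N`) holds for every finite smooth module
(`devissage_sub`).

Proof.  Let `V ∈ 𝓤` act trivially on `N`.  `N` embeds into `M = {f : G ⧸ V → N}`,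
`(h f)(x) = h f(h⁻¹ x)`, by the constant functions, and `M ≅ k[G/V] ⊗ N_triv` is a direct sum of
copies of `k[G/V]`: for a subspace `W` of `N` and a linear form `λ` with `λ w₀ = 1`, `w₀ ∈ W`, the
sequence `0 → M_{W ∩ ker λ} → M_W → k[G/V] → 0` is split by `φ ↦ (x ↦ φ(x) g_x w₀)`.
-/

set_option autoImplicit false
set_option linter.style.haveILetI false
set_option linter.unusedSectionVars false

noncomputable section

open CategoryTheory

namespace Fermat.Agent.F4

section Split

variable {k G : Type} [Field k] [Group G] {V : Subgroup G} {N : Rep.{0} k G}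

/-- if `V` acts trivially, `g w` only depends on the coset `g V`. -/
lemma ρ_out_eq (hVN : ∀ v ∈ V, ∀ n : N, N.ρ v n = n) (g : G) (w : N) :
    N.ρ (Quotient.out (g : G ⧸ V)) w = N.ρ g w := by
  have hmk : ((Quotient.out (g : G ⧸ V) : G) : G ⧸ V) = (g : G ⧸ V) := QuotientGroup.out_eq' _
  have hu : g⁻¹ * Quotient.out (g : G ⧸ V) ∈ V := QuotientGroup.eq.mp hmk.symm
  have e : Quotient.out (g : G ⧸ V) = g * (g⁻¹ * Quotient.out (g : G ⧸ V)) := by group
  rw [e, map_mul, Module.End.mul_apply, hVN _ hu]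

/-- the section `φ ↦ (x ↦ φ(x) g_x w₀)` of `twQ`. -/
def twSec (V : Subgroup G) (N : Rep.{0} k G) (W : Submodule k N)
    (hVN : ∀ v ∈ V, ∀ n : N, N.ρ v n = n) (w₀ : N) (hw₀ : w₀ ∈ W) :
    ((G ⧸ V) → k) →ₗ[k] twSub V N W where
  toFun φ := ⟨fun x => φ x • N.ρ (Quotient.out x) w₀, fun g => by
    simp only [map_smul]
    refine W.smul_mem _ ?_
    rw [ρ_out_eq hVN, ← Module.End.mul_apply, ← map_mul, inv_mul_cancel, map_one,
      Module.End.one_apply]
    exact hw₀⟩
  map_add' φ φ' := by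
    refine Subtype.ext (funext fun x => ?_)
    simp [add_smul]
  map_smul' c φ := by
    refine Subtype.ext (funext fun x => ?_)
    simp [mul_smul]

lemma twSec_apply (W : Submodule k N) (hVN : ∀ v ∈ V, ∀ n : N, N.ρ v n = n) (w₀ : N)
    (hw₀ : w₀ ∈ W) (φ : (G ⧸ V) → k) (x : G ⧸ V) :
    ((twSec V N W hVN w₀ hw₀ φ : twSub V N W) : (G ⧸ V) → N) x
      = φ x • N.ρ (Quotient.out x) w₀ := rfl

lemma twSec_equivariant (W : Submodule k N) (hVN : ∀ v ∈ V, ∀ n : N, N.ρ v n = n) (w₀ : N)
    (hw₀ : w₀ ∈ W) (h : G) (φ : (G ⧸ V) → k) :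
    twSec V N W hVN w₀ hw₀ ((permRep k V).ρ h φ)
      = (twSubRep V N W).ρ h (twSec V N W hVN w₀ hw₀ φ) := by
  refine Subtype.ext (funext fun x => ?_)
  rw [twSubRep_ρ_apply, twSec_apply, twSec_apply, permRep_ρ_apply, map_smul]
  congr 1
  induction x using QuotientGroup.induction_on with
  | H g =>
    have e : (h⁻¹ • (g : G ⧸ V)) = ((h⁻¹ * g : G) : G ⧸ V) := rfl
    rw [e, ρ_out_eq hVN, ρ_out_eq hVN, ← Module.End.mul_apply, ← map_mul, mul_inv_cancel_left]

lemma twQ_twSec (W : Submodule k N) (hVN : ∀ v ∈ V, ∀ n : N, N.ρ v n = n) (lam : N →ₗ[k] k)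
    (w₀ : N) (hw₀ : w₀ ∈ W) (h1 : lam w₀ = 1) (φ : (G ⧸ V) → k) :
    twQ V N lam ((twSec V N W hVN w₀ hw₀ φ : twSub V N W) : (G ⧸ V) → N) = φ := by
  funext x
  rw [twQ_apply, twSec_apply]
  simp only [map_smul]
  rw [← Module.End.mul_apply, ← map_mul, inv_mul_cancel, map_one, Module.End.one_apply, h1,
    smul_eq_mul, mul_one]

end Split

section Main

variable {k G : Type} [Field k] [Group G] (𝓤 : Levels G) (P : Rep.{0} k G → Prop)

/-- `M_W` has `P` for every subspace `W`, if `V` acts trivially on `N`. -/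
theorem P_twSubRep_split
    (hperm : ∀ U : Subgroup G, 𝓤.IsOpen U → P (permRep k U))
    (hsplit : ∀ (N' N N'' : Rep.{0} k G)
        (i : N' →ₗ[k] N) (_ : ∀ g n, i (N'.ρ g n) = N.ρ g (i n))
        (q : N →ₗ[k] N'') (_ : ∀ g n, q (N.ρ g n) = N''.ρ g (q n))
        (σ : N'' →ₗ[k] N) (_ : ∀ g n, σ (N''.ρ g n) = N.ρ g (σ n)),
        Function.Injective i → (∀ n, q (σ n) = n) → (∀ n, q n = 0 ↔ ∃ n', i n' = n) →
        IsSmooth 𝓤 N → Module.Finite k N → P N' → P N'' → P N)
    (hsub : ∀ (N M N'' : Rep.{0} k G)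
        (i : N →ₗ[k] M) (_ : ∀ g n, i (N.ρ g n) = M.ρ g (i n))
        (q : M →ₗ[k] N'') (_ : ∀ g n, q (M.ρ g n) = N''.ρ g (q n)),
        Function.Injective i → Function.Surjective q → (∀ n, q n = 0 ↔ ∃ n', i n' = n) →
        IsSmooth 𝓤 M → Module.Finite k M → P M → P N)
    {V : Subgroup G} (hV : V ∈ 𝓤.sets) (N : Rep.{0} k G) [Module.Finite k N]
    (hVN : ∀ v ∈ V, ∀ n : N, N.ρ v n = n) :
    ∀ (n : ℕ) (W : Submodule k N), Module.finrank k W = n → P (twSubRep V N W) := by
  have hU : 𝓤.IsOpen V := ⟨V, hV, le_rfl⟩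
  have := 𝓤.finiteIndex V hV
  have : Finite (G ⧸ V) := Subgroup.finite_quotient_of_finiteIndex
  intro n
  induction n using Nat.strong_induction_on with
  | _ n ih =>
    intro W hn
    by_cases hbot : W = ⊥
    · rw [hbot]
      refine hsub (twSubRep V N ⊥) (permRep k V) (permRep k V) 0 (fun g n => ?_)
        LinearMap.id (fun g m => rfl) (fun f f' _ => ?_) (fun m => ⟨m, rfl⟩) (fun m => ?_)
        (permRep_smooth 𝓤 hU) (permRep_finite 𝓤 hU) (hperm V hU)
      · simp
      · obtain ⟨f, hf⟩ := f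
        obtain ⟨f', hf'⟩ := f'
        have h1 := hf
        have h2 := hf'
        rw [twSub_bot_eq, Submodule.mem_bot] at h1 h2
        subst h1
        subst h2
        rfl
      · constructor
        · intro h0
          exact ⟨0, h0.symm⟩
        · rintro ⟨_, h0⟩
          exact h0.symm
    obtain ⟨w₀, hw₀, hw₀ne⟩ := Submodule.exists_mem_ne_zero_of_ne_bot hbot
    obtain ⟨lam₀, hlam₀⟩ : ∃ φ : Module.Dual k N, φ w₀ ≠ 0 := by
      by_contra hcon
      push Not at hcon
      exact hw₀ne ((Module.forall_dual_apply_eq_zero_iff k w₀).mp hcon)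
    -- normalise
    set lam : N →ₗ[k] k := (lam₀ w₀)⁻¹ • lam₀ with hlamdef
    have h1 : lam w₀ = 1 := by
      simp only [hlamdef, LinearMap.smul_apply, smul_eq_mul]
      exact inv_mul_cancel₀ hlam₀
    have hlam : ∀ u ∈ V, ∀ w ∈ W, lam (N.ρ u w) = lam w := fun u hu w _ => by rw [hVN u hu]
    have hlt : W ⊓ LinearMap.ker lam < W := by
      refine lt_of_le_of_ne inf_le_left fun heq => ?_
      have : w₀ ∈ W ⊓ LinearMap.ker lam := by
        rw [heq]
        exact hw₀
      have h0 : lam w₀ = 0 := this.2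
      rw [h1] at h0
      exact one_ne_zero h0
    have hrank : Module.finrank k ↥(W ⊓ LinearMap.ker lam) < n := by
      rw [← hn]
      exact Submodule.finrank_lt_finrank_of_lt hlt
    have hP' := ih _ hrank (W ⊓ LinearMap.ker lam) rfl
    refine hsplit (twSubRep V N (W ⊓ LinearMap.ker lam)) (twSubRep V N W) (permRep k V)
      (Submodule.inclusion (twSub_mono V N inf_le_left)) (fun g f => rfl)
      ((twQ V N lam).comp (twSub V N W).subtype) (fun g f => ?_)
      (twSec V N W hVN w₀ hw₀) (twSec_equivariant W hVN w₀ hw₀)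
      (Submodule.inclusion_injective _) (fun φ => ?_) (fun f => ?_)
      (twSubRep_smooth 𝓤 hV le_rfl hVN W) (twSubRep_finite W) hP' (hperm V hU)
    · exact twQ_equivariant hlam f.2 g
    · exact twQ_twSec W hVN lam w₀ hw₀ h1 φ
    · constructor
      · intro h0
        have := (twQ_eq_zero_iff hlam f.2).mp h0
        exact ⟨⟨f.1, this⟩, rfl⟩
      · rintro ⟨f', rfl⟩
        exact (twQ_eq_zero_iff hlam (twSub_mono V N inf_le_left f'.2)).mpr f'.2

/-- the range of the constant functions is stable. -/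
lemma range_twConst_le_comap (V : Subgroup G) (N : Rep.{0} k G) (g : G) :
    LinearMap.range (twConst V N) ≤
      (LinearMap.range (twConst V N)).comap ((twSubRepr V N ⊤) g) := by
  rintro _ ⟨n, rfl⟩
  exact ⟨N.ρ g n, twConst_equivariant V N g n⟩

/-- **Dévissage principle, embedding form.**  A property of `k[G]`-modules which holds for the
permutation modules `k[G/U]`, `U` open, is closed under split extensions and passes to submodules,
holds for every finite smooth `k[G]`-module. -/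
theorem devissage_sub
    (hperm : ∀ U : Subgroup G, 𝓤.IsOpen U → P (permRep k U))
    (hsplit : ∀ (N' N N'' : Rep.{0} k G)
        (i : N' →ₗ[k] N) (_ : ∀ g n, i (N'.ρ g n) = N.ρ g (i n))
        (q : N →ₗ[k] N'') (_ : ∀ g n, q (N.ρ g n) = N''.ρ g (q n))
        (σ : N'' →ₗ[k] N) (_ : ∀ g n, σ (N''.ρ g n) = N.ρ g (σ n)),
        Function.Injective i → (∀ n, q (σ n) = n) → (∀ n, q n = 0 ↔ ∃ n', i n' = n) →
        IsSmooth 𝓤 N → Module.Finite k N → P N' → P N'' → P N)
    (hsub : ∀ (N M N'' : Rep.{0} k G)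
        (i : N →ₗ[k] M) (_ : ∀ g n, i (N.ρ g n) = M.ρ g (i n))
        (q : M →ₗ[k] N'') (_ : ∀ g n, q (M.ρ g n) = N''.ρ g (q n)),
        Function.Injective i → Function.Surjective q → (∀ n, q n = 0 ↔ ∃ n', i n' = n) →
        IsSmooth 𝓤 M → Module.Finite k M → P M → P N)
    (N : Rep.{0} k G) (hN : IsSmooth 𝓤 N) (hfin : Module.Finite k N) : P N := by
  obtain ⟨V, hV, hVN⟩ := exists_level_fixing 𝓤 N hN
  have := 𝓤.finiteIndex V hV
  have : Finite (G ⧸ V) := Subgroup.finite_quotient_of_finiteIndex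
  have hPM : P (twSubRep V N ⊤) := P_twSubRep_split 𝓤 P hperm hsplit hsub hV N hVN _ ⊤ rfl
  refine hsub N (twSubRep V N ⊤)
    (Rep.of ((twSubRepr V N ⊤).quotient (LinearMap.range (twConst V N))
      (range_twConst_le_comap V N)))
    (twConst V N) (twConst_equivariant V N)
    (LinearMap.range (twConst V N)).mkQ (fun g m => rfl) (fun n n' hnn' => ?_)
    (Submodule.mkQ_surjective _) (fun m => ?_)
    (twSubRep_smooth 𝓤 hV le_rfl hVN ⊤) (twSubRep_finite ⊤) hPM
  · obtain ⟨x⟩ : Nonempty (G ⧸ V) := ⟨((1 : G) : G ⧸ V)⟩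
    exact congrFun (congrArg Subtype.val hnn') x
  · rw [Submodule.mkQ_apply, Submodule.Quotient.mk_eq_zero]
    rfl

end Main

end Fermat.Agent.F4
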