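import Fermat.Agent.F4.SM.Levels

/-!
# F4 / Hyper : smooth hypercohomology of 2-term complexes in low degree (definitions)

Route v2 of cluster D (S55, Poitou–Tate), see `NOTES/blueprint-F4-v2.md`.

For a finite `𝔽_p[G]`-module `N` and a smooth `G`-module `C`, the groups `Ext^r_G(N, C)` are modelled
as the hypercohomology `HH^r(G, Hom_k(N, K))` of a **2-term complex** `K = [K⁰ → K¹]` of smooth
`k[G]`-modules (`k = 𝔽_p`, `K = [I[p] → (I/C)[p]]` for a `p`-divisible smooth `I ⊇ C`).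
Everything is explicit, in the style of Mathlib's `GroupCohomology.LowDegree`:

* a cochain of degree `r` is a pair `(a, b)`, `a : G^r → K⁰`, `b : G^(r-1) → K¹`;
* `D (a, b) = (δ a, d ∘ a - δ b)`;
* smooth = level-constant with respect to a level structure `𝓤` (`F4/SM/Levels.lean`).

This file contains definitions and small lemmas only; it is a FIXED interface.
-/

set_option autoImplicit false

open CategoryTheory groupCohomology

namespace Fermat.Agent.F4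

variable {k G : Type} [CommRing k] [Group G]

/-! ### Explicit group differentials (definitionally Mathlib's `d₀₁`, `d₁₂`, `d₂₃`) -/

/-- `δ⁰ x = (g ↦ g x - x)`. -/
def δ0 (A : Rep.{0} k G) : A →ₗ[k] (G → A) := (d₀₁ A).hom

/-- `δ¹ f = ((g, h) ↦ g f(h) - f(g h) + f(g))`. -/
def δ1 (A : Rep.{0} k G) : (G → A) →ₗ[k] (G × G → A) := (d₁₂ A).hom

/-- `δ² f = ((g, h, j) ↦ g f(h, j) - f(g h, j) + f(g, h j) - f(g, h))`. -/
def δ2 (A : Rep.{0} k G) : (G × G → A) →ₗ[k] (G × G × G → A) := (d₂₃ A).hom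

@[simp] lemma δ0_apply (A : Rep.{0} k G) (x : A) (g : G) : δ0 A x g = A.ρ g x - x := rfl

@[simp] lemma δ1_apply (A : Rep.{0} k G) (f : G → A) (p : G × G) :
    δ1 A f p = A.ρ p.1 (f p.2) - f (p.1 * p.2) + f p.1 := rfl

@[simp] lemma δ2_apply (A : Rep.{0} k G) (f : G × G → A) (p : G × G × G) :
    δ2 A f p = A.ρ p.1 (f (p.2.1, p.2.2)) - f (p.1 * p.2.1, p.2.2)
      + f (p.1, p.2.1 * p.2.2) - f (p.1, p.2.1) := rfl

lemma δ1_δ0 (A : Rep.{0} k G) (x : A) : δ1 A (δ0 A x) = 0 := by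
  funext p
  simp [map_sub, map_mul]

lemma δ2_δ1 (A : Rep.{0} k G) (f : G → A) : δ2 A (δ1 A f) = 0 := by
  funext p
  simp only [δ2_apply, δ1_apply, map_add, map_sub, Pi.zero_apply, mul_assoc]
  rw [← Module.End.mul_apply, ← map_mul]
  abel

/-! ### 2-term complexes -/

/-- A 2-term complex `K⁰ → K¹` of `k[G]`-modules. -/
structure Cx (k G : Type) [CommRing k] [Group G] where
  K0 : Rep.{0} k G
  K1 : Rep.{0} k G
  d : K0 →ₗ[k] K1
  comm : ∀ (g : G) (x : K0), d (K0.ρ g x) = K1.ρ g (d x)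

/-- A module in degree `0`. -/
def Cx.deg0 (A : Rep.{0} k G) : Cx k G where
  K0 := A
  K1 := Rep.of (k := k) (G := G) (X := PUnit.{1}) 1
  d := 0
  comm _ _ := rfl

/-- A morphism of 2-term complexes. -/
structure CxHom (K L : Cx k G) where
  f0 : K.K0 →ₗ[k] L.K0
  f1 : K.K1 →ₗ[k] L.K1
  comm0 : ∀ (g : G) (x : K.K0), f0 (K.K0.ρ g x) = L.K0.ρ g (f0 x)
  comm1 : ∀ (g : G) (x : K.K1), f1 (K.K1.ρ g x) = L.K1.ρ g (f1 x)
  commd : ∀ x : K.K0, f1 (K.d x) = L.d (f0 x)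

/-- Termwise short exact sequence `0 → K' → K → K'' → 0` of 2-term complexes. -/
structure CxShortExact {K' K K'' : Cx k G} (f : CxHom K' K) (g : CxHom K K'') : Prop where
  inj0 : Function.Injective f.f0
  inj1 : Function.Injective f.f1
  surj0 : Function.Surjective g.f0
  surj1 : Function.Surjective g.f1
  exact0 : ∀ x, g.f0 x = 0 ↔ ∃ y, f.f0 y = x
  exact1 : ∀ x, g.f1 x = 0 ↔ ∃ y, f.f1 y = x

/-- The complex is smooth: both terms are. -/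
def Cx.Smooth (𝓤 : Levels G) (K : Cx k G) : Prop :=
  Fermat.Agent.F4.IsSmooth 𝓤 K.K0 ∧ Fermat.Agent.F4.IsSmooth 𝓤 K.K1

/-! ### Total cochains and differentials -/

/-- Total 1-cochains: `(a : G → K⁰, b : K¹)`. -/
abbrev T1 (K : Cx k G) : Type := (G → K.K0) × K.K1

/-- Total 2-cochains: `(a : G × G → K⁰, b : G → K¹)`. -/
abbrev T2 (K : Cx k G) : Type := (G × G → K.K0) × (G → K.K1)

/-- Total 3-cochains: `(a : G × G × G → K⁰, b : G × G → K¹)`. -/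
abbrev T3 (K : Cx k G) : Type := (G × G × G → K.K0) × (G × G → K.K1)

/-- Post-composition of cochains with `d`. -/
def Cx.dco (K : Cx k G) (X : Type) : (X → K.K0) →ₗ[k] (X → K.K1) where
  toFun a x := K.d (a x)
  map_add' a b := by funext x; simp
  map_smul' c a := by funext x; simp

@[simp] lemma Cx.dco_apply (K : Cx k G) (X : Type) (a : X → K.K0) (x : X) :
    K.dco X a x = K.d (a x) := rfl

/-- `D⁰ x = (δ x, d x)`. -/
def D0 (K : Cx k G) : K.K0 →ₗ[k] T1 K := (δ0 K.K0).prod K.d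

/-- `D¹ (a, b) = (δ a, d ∘ a - δ b)`. -/
def D1 (K : Cx k G) : T1 K →ₗ[k] T2 K :=
  ((δ1 K.K0).comp (LinearMap.fst k _ _)).prod
    ((K.dco G).comp (LinearMap.fst k _ _) - (δ0 K.K1).comp (LinearMap.snd k _ _))

/-- `D² (a, b) = (δ a, d ∘ a - δ b)`. -/
def D2 (K : Cx k G) : T2 K →ₗ[k] T3 K :=
  ((δ2 K.K0).comp (LinearMap.fst k _ _)).prod
    ((K.dco (G × G)).comp (LinearMap.fst k _ _) - (δ1 K.K1).comp (LinearMap.snd k _ _))

@[simp] lemma D0_apply (K : Cx k G) (x : K.K0) : D0 K x = (δ0 K.K0 x, K.d x) := rfl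

@[simp] lemma D1_apply (K : Cx k G) (ab : T1 K) :
    D1 K ab = (δ1 K.K0 ab.1, K.dco G ab.1 - δ0 K.K1 ab.2) := rfl

@[simp] lemma D2_apply (K : Cx k G) (ab : T2 K) :
    D2 K ab = (δ2 K.K0 ab.1, K.dco (G × G) ab.1 - δ1 K.K1 ab.2) := rfl

lemma Cx.dco_δ0 (K : Cx k G) (x : K.K0) : K.dco G (δ0 K.K0 x) = δ0 K.K1 (K.d x) := by
  funext g
  simp [K.comm]

lemma Cx.dco_δ1 (K : Cx k G) (a : G → K.K0) : K.dco (G × G) (δ1 K.K0 a) = δ1 K.K1 (K.dco G a) := by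
  funext p
  simp [K.comm]

lemma D1_D0 (K : Cx k G) (x : K.K0) : D1 K (D0 K x) = 0 := by
  simp only [D0_apply, D1_apply, δ1_δ0, K.dco_δ0, sub_self]
  rfl

lemma D2_D1 (K : Cx k G) (ab : T1 K) : D2 K (D1 K ab) = 0 := by
  simp only [D1_apply, D2_apply, δ2_δ1, K.dco_δ1, map_sub, δ1_δ0, sub_zero, sub_self]
  rfl

/-! ### Smooth cocycles, coboundaries, hypercohomology -/

section Smooth

variable (𝓤 : Levels G) (K : Cx k G)

/-- Level-constant total 1-cochains. -/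
def lcT1 : Submodule k (T1 K) := (lc₁ 𝓤 K.K0).prod ⊤

/-- Level-constant total 2-cochains. -/
def lcT2 : Submodule k (T2 K) := (lc₂ 𝓤 K.K0).prod (lc₁ 𝓤 K.K1)

/-- `HH⁰ = {x ∈ K⁰ | g x = x, d x = 0}`. -/
def HH0 : Submodule k K.K0 := LinearMap.ker (D0 K)

/-- Smooth total 1-cocycles. -/
def ZZ1 : Submodule k (T1 K) := LinearMap.ker (D1 K) ⊓ lcT1 𝓤 K

/-- Total 1-coboundaries. -/
def BB1 : Submodule k (T1 K) := LinearMap.range (D0 K)

/-- Smooth total 2-cocycles. -/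
def ZZ2 : Submodule k (T2 K) := LinearMap.ker (D2 K) ⊓ lcT2 𝓤 K

/-- Smooth total 2-coboundaries: `D¹` of level-constant 1-cochains. -/
def BB2 : Submodule k (T2 K) := (lcT1 𝓤 K).map (D1 K)

/-- Smooth hypercohomology in degree 1. -/
abbrev HH1 : Type := ↥(ZZ1 𝓤 K) ⧸ (BB1 K).comap (ZZ1 𝓤 K).subtype

/-- Smooth hypercohomology in degree 2. -/
abbrev HH2 : Type := ↥(ZZ2 𝓤 K) ⧸ (BB2 𝓤 K).comap (ZZ2 𝓤 K).subtype

/-- The class map `ZZ¹ → HH¹`. -/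
abbrev HH1π : ↥(ZZ1 𝓤 K) →ₗ[k] HH1 𝓤 K := Submodule.mkQ _

/-- The class map `ZZ² → HH²`. -/
abbrev HH2π : ↥(ZZ2 𝓤 K) →ₗ[k] HH2 𝓤 K := Submodule.mkQ _

lemma mem_ZZ1_iff (ab : T1 K) :
    ab ∈ ZZ1 𝓤 K ↔ δ1 K.K0 ab.1 = 0 ∧ K.dco G ab.1 = δ0 K.K1 ab.2 ∧ IsLC₁ 𝓤 ab.1 := by
  simp only [ZZ1, lcT1, Submodule.mem_inf, LinearMap.mem_ker, D1_apply, Prod.mk_eq_zero,
    sub_eq_zero, Submodule.mem_prod, mem_lc₁_iff, Submodule.mem_top, and_true, and_assoc]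

lemma mem_ZZ2_iff (ab : T2 K) :
    ab ∈ ZZ2 𝓤 K ↔ δ2 K.K0 ab.1 = 0 ∧ K.dco (G × G) ab.1 = δ1 K.K1 ab.2 ∧
      IsLC₂ 𝓤 ab.1 ∧ IsLC₁ 𝓤 ab.2 := by
  simp only [ZZ2, lcT2, Submodule.mem_inf, LinearMap.mem_ker, D2_apply, Prod.mk_eq_zero,
    sub_eq_zero, Submodule.mem_prod, mem_lc₂_iff, mem_lc₁_iff, and_assoc]

lemma mem_BB2_iff (ab : T2 K) :
    ab ∈ BB2 𝓤 K ↔ ∃ cd : T1 K, IsLC₁ 𝓤 cd.1 ∧ D1 K cd = ab := by
  simp only [BB2, Submodule.mem_map, lcT1, Submodule.mem_prod, mem_lc₁_iff, Submodule.mem_top,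
    and_true]

lemma mem_BB1_iff (ab : T1 K) : ab ∈ BB1 K ↔ ∃ x : K.K0, D0 K x = ab := by
  simp only [BB1, LinearMap.mem_range]

end Smooth

end Fermat.Agent.F4
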